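import Fermat.Agent.AtP.Toric
import Fermat.Agent.SSMod.Base
import Fermat.Agent.Carayol.Inertia2
import Fermat.Agent.ECRed.AtP
import Fermat.Agent.FlatLoc.Zeta

/-!
# From approximate to exact Kummer generators
-/

set_option autoImplicit false
set_option linter.unusedSectionVars false
set_option linter.style.haveILetI false

noncomputable section

namespace Fermat.Agent.AtS

open Fermat.Agent Fermat.Agent.Carayol Fermat.Agent.ECRed OrdFn
open scoped Pointwise

variable {p : ℕ} {A : ValuationSubring Qb}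

theorem mem_inertia_mem {σ : Qb ≃ₐ[ℚ] Qb} (hσ : σ ∈ A.inertiaSubgroupIn ℚ) {x : Qb} :
    σ x ∈ A ↔ x ∈ A := ((mem_inertia_iff A σ).1 hσ).1 x

/-- the average over cosets -/
theorem exists_avg {G : Type*} [Group G] (H : Subgroup G) [H.FiniteIndex] (φ : G →* (Qb ≃ₐ[ℚ] Qb))
    {c : Qb} (hc : ∀ h ∈ H, φ h c = c) :
    ∃ s : Finset G, s.card = H.index ∧ ∀ τ : G, φ τ (∑ g ∈ s, φ g c) = ∑ g ∈ s, φ g c := by
  classical
  letI : Fintype (G ⧸ H) := H.fintypeQuotientOfFiniteIndex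
  have hinj : Function.Injective (fun x : G ⧸ H => x.out) := by
    intro x y h
    have : (QuotientGroup.mk x.out : G ⧸ H) = QuotientGroup.mk y.out := congrArg _ h
    rwa [QuotientGroup.out_eq', QuotientGroup.out_eq'] at this
  refine ⟨Finset.univ.image (fun x : G ⧸ H => x.out), ?_, fun τ => ?_⟩
  · rw [Finset.card_image_of_injective _ hinj, Finset.card_univ, Subgroup.index,
      Nat.card_eq_fintype_card]
  · rw [Finset.sum_image fun x _ y _ h => hinj h, map_sum]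
    refine Fintype.sum_equiv (MulAction.toPerm τ) _ _ fun x => ?_
    have h1 : (QuotientGroup.mk (τ * x.out) : G ⧸ H) = QuotientGroup.mk ((τ • x).out) := by
      rw [QuotientGroup.out_eq']
      conv_rhs => rw [← QuotientGroup.out_eq' x]
      rfl
    obtain h2 := QuotientGroup.eq.1 h1.symm
    have h3 := hc _ h2
    rw [map_mul, map_inv, map_mul] at h3
    show φ τ (φ x.out c) = φ ((τ • x).out) c
    have h4 := congrArg (φ ((τ • x).out)) h3
    rw [AlgEquiv.mul_apply] at h4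
    rw [← h4]
    have h5 : ∀ (e : Qb ≃ₐ[ℚ] Qb) (y : Qb), e (e⁻¹ y) = y := fun e y => e.apply_symm_apply y
    rw [h5, AlgEquiv.mul_apply]

theorem hval_exists (hp : p.Prime) (hA : A.LiesOverPrime p) {Γ : Subgroup (Qb ≃ₐ[ℚ] Qb)}
    (hΓI : Γ ≤ A.inertiaSubgroupIn ℚ) (hfin : (Γ.subgroupOf (A.inertiaSubgroupIn ℚ)).FiniteIndex)
    (FU : ∀ b : Qb, b ≠ 0 → (∀ σ ∈ A.inertiaSubgroupIn ℚ, σ (b ^ p) = b ^ p) →
      (∀ σ ∈ Γ, σ b = b) → ∃ l : ℤ, A.valuation (b * (p : Qb) ^ l) = 1) :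
    ∃ α ∈ A, α ≠ 0 ∧ A.valuation α < 1 ∧ ∀ b : Qb, b ≠ 0 →
      (∀ σ ∈ A.inertiaSubgroupIn ℚ, ∃ y ∈ A, (σ b / b) ^ p = 1 + α * y) →
      (∀ σ ∈ Γ, σ b = b) → ∀ m : ℤ, A.valuation (b ^ p * (p : Qb) ^ m) = 1 → (p : ℤ) ∣ m := by
  classical
  haveI : Fact p.Prime := ⟨hp⟩
  set I := A.inertiaSubgroupIn ℚ with hI
  set H := Γ.subgroupOf I with hH
  set N := H.index with hN
  have hN0 : N ≠ 0 := Subgroup.FiniteIndex.index_ne_zero
  have hNQ : (N : Qb) ≠ 0 := by exact_mod_cast hN0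
  have hpQ : (p : Qb) ≠ 0 := by exact_mod_cast hp.ne_zero
  have hpA : (p : Qb) ∈ A := natCast_mem A p
  have hNA : (N : Qb) ∈ A := natCast_mem A N
  have hvp : A.valuation (p : Qb) < 1 := val_q_lt hA
  have hvp0 : 0 < A.valuation (p : Qb) := (Valuation.pos_iff _).2 hpQ
  refine ⟨N * (p : Qb) ^ 3, mul_mem hNA (pow_mem hpA 3), mul_ne_zero hNQ (pow_ne_zero _ hpQ), ?_,
    ?_⟩
  · rw [map_mul, map_pow]
    refine mul_lt_one_of_nonneg_of_lt_one_right ((A.valuation_le_one_iff _).2 hNA) zero_le ?_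
    exact pow_lt_one₀ zero_le hvp (by norm_num)
  intro b hb hb1 hb2 m hm
  -- the average
  obtain ⟨s, hs, hfix⟩ := exists_avg H I.subtype (c := b ^ p) (by
    intro h hh
    rw [hH, Subgroup.mem_subgroupOf] at hh
    show (h : Qb ≃ₐ[ℚ] Qb) (b ^ p) = b ^ p
    rw [map_pow, hb2 _ hh])
  rw [← hN] at hs
  choose! y hyA hy using hb1
  set β : Qb := (N : Qb)⁻¹ * ∑ g ∈ s, (I.subtype g) (b ^ p) with hβ
  have hβfix : ∀ σ ∈ I, σ β = β := by
    intro σ hσ
    have := hfix ⟨σ, hσ⟩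
    rw [hβ, map_mul, map_inv₀, map_natCast]
    congr 1
  set z : Qb := 1 + (p : Qb) ^ 3 * ∑ g ∈ s, y (g : Qb ≃ₐ[ℚ] Qb) with hz
  have hβz : β = b ^ p * z := by
    have h1 : ∀ g ∈ s, (I.subtype g) (b ^ p) = b ^ p * (1 + (N * (p : Qb) ^ 3) * y g) := by
      intro g _
      have h2 := hy (g : Qb ≃ₐ[ℚ] Qb) g.2
      rw [div_pow, div_eq_iff (pow_ne_zero _ hb)] at h2
      show (g : Qb ≃ₐ[ℚ] Qb) (b ^ p) = _
      rw [map_pow, h2]
      ring
    rw [hβ, Finset.sum_congr rfl h1, ← Finset.mul_sum, Finset.sum_add_distrib, ← Finset.mul_sum,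
      Finset.sum_const, hs, nsmul_eq_mul, mul_one, hz]
    field_simp
  -- the root
  obtain ⟨ε₀, hε₀⟩ := IsAlgClosed.exists_pow_nat_eq z hp.pos
  have hsumA : ∑ g ∈ s, y (g : Qb ≃ₐ[ℚ] Qb) ∈ A := sum_mem fun g _ => hyA _ g.2
  obtain ⟨ζ, hζ, hεζ⟩ := AtP.near_root (B := SSMod.baseRes (IsLocalRing.residue A)
    IsLocalRing.residue_surjective) (n := p) hpQ (c := (p : Qb) ^ 2) (α := ε₀)
    (pow_ne_zero _ hpQ) (by
    show (ε₀ ^ p - 1) / ((p : Qb) * (p : Qb) ^ 2) ∈ A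
    rw [hε₀, hz]
    convert hsumA using 1
    field_simp
    ring)
  have hεζ' : (ε₀ - ζ) / (p : Qb) ^ 2 ∈ A := hεζ
  have hζ0 : ζ ≠ 0 := by
    rintro rfl
    rw [zero_pow hp.ne_zero] at hζ
    exact zero_ne_one hζ
  have hζv : A.valuation ζ = 1 := by
    have h5 : A.valuation ζ ^ p = 1 := by rw [← map_pow, hζ, map_one]
    exact (pow_eq_one_iff.1 h5).resolve_right hp.ne_zero
  set ε := ε₀ / ζ with hε
  have hεp : ε ^ p = z := by rw [hε, div_pow, hζ, div_one, hε₀]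
  obtain ⟨w, hwA, hw⟩ : ∃ w ∈ A, ε = 1 + (p : Qb) ^ 2 * w := by
    refine ⟨(ε₀ - ζ) / (p : Qb) ^ 2 * ζ⁻¹, mul_mem hεζ' ?_, ?_⟩
    · rw [← A.valuation_le_one_iff, map_inv₀, hζv, inv_one]
    · rw [hε]; field_simp; ring
  have hεv : A.valuation ε = 1 := by
    have h1 : A.valuation (ε - 1) < 1 := by
      rw [hw, add_sub_cancel_left, map_mul, map_pow]
      refine mul_lt_one_of_nonneg_of_lt_one_left zero_le (pow_lt_one₀ zero_le hvp (by norm_num))
        ((A.valuation_le_one_iff _).2 hwA)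
    have h2 := A.valuation.map_one_add_of_lt h1
    rwa [add_sub_cancel] at h2
  have hε0 : ε ≠ 0 := by
    rintro h
    rw [h, map_zero] at hεv
    exact zero_ne_one hεv
  have hb₁p : (b * ε) ^ p = β := by rw [mul_pow, hεp, hβz]
  -- invariance
  have hv1 : (ordFnAt A hp hA).ord (p : Qb) = 1 := (ordAt_q (A := A) hp hA).2
  obtain ⟨l, hl⟩ := FU (b * ε) (mul_ne_zero hb hε0) (fun σ hσ => by rw [hb₁p]; exact hβfix σ hσ)
    (fun σ hσ => by
      have hσI := hΓI hσ
      rw [map_mul, hb2 σ hσ]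
      congr 1
      have hη : (σ ε / ε) ^ p = 1 := by
        have h1 := hβfix σ hσI
        rw [hβz, ← hεp, map_mul, map_pow, map_pow, hb2 σ hσ] at h1
        have h2 := mul_left_cancel₀ (pow_ne_zero p hb) h1
        rw [div_pow, h2, div_self (pow_ne_zero _ hε0)]
      by_contra hne
      have hη1 : σ ε / ε ≠ 1 := fun h => hne ((div_eq_one_iff_eq hε0).1 h)
      have hprim : IsPrimitiveRoot (σ ε / ε) p := by
        have h3 := IsPrimitiveRoot.orderOf (σ ε / ε)
        rwa [orderOf_eq_prime hη hη1] at h3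
      have h4 := FlatLoc.eq_zeta_sub_one (v := ordFnAt A hp hA) hv1 hprim
      have h5 : (ordFnAt A hp hA).Ge 2 (σ ε / ε - 1) := by
        have e1 : σ ε / ε - 1 = (p : Qb) ^ 2 * ((σ w - w) / ε) := by
          have : σ ε = 1 + (p : Qb) ^ 2 * σ w := by
            conv_lhs => rw [hw]
            rw [map_add, map_one, map_mul, map_pow, map_natCast]
          rw [this]
          field_simp
          rw [hw]; ring
        have h6 : (σ w - w) / ε ∈ A := by
          rw [div_eq_mul_inv]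
          refine mul_mem (sub_mem ((mem_inertia_mem hσI).2 hwA) hwA) ?_
          rw [← A.valuation_le_one_iff, map_inv₀, hεv, inv_one]
        rw [e1]
        have h7 : (ordFnAt A hp hA).Eq 2 ((p : Qb) ^ 2) := by
          have := (ordAt_q (A := A) hp hA).pow 2
          simpa using this
        have h8 := h7.ge.mul ((ordFnAt_ge A hp hA _).2 h6)
        rwa [add_zero] at h8
      have h9 := (ge_iff h4.1).1 h5
      rw [h4.2] at h9
      have hp1 : (1 : ℝ) ≤ (p : ℝ) - 1 := by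
        have : (2 : ℝ) ≤ p := by exact_mod_cast hp.two_le
        linarith
      have h10 : 1 / ((p : ℝ) - 1) ≤ 1 := by
        rw [div_le_one (by linarith)]; exact hp1
      linarith)
  -- conclusion
  have h1 : A.valuation b * A.valuation (p : Qb) ^ l = 1 := by
    rw [map_mul, map_mul, hεv, mul_one, map_zpow₀] at hl
    exact hl
  have h2 : A.valuation b ^ p * A.valuation (p : Qb) ^ m = 1 := by
    rw [map_mul, map_pow, map_zpow₀] at hm
    exact hm
  have h3 : A.valuation b = A.valuation (p : Qb) ^ (-l) := by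
    rw [zpow_neg]
    exact eq_inv_of_mul_eq_one_left h1
  have h4 : A.valuation (p : Qb) ^ (-l * p + m) = A.valuation (p : Qb) ^ (0 : ℤ) := by
    rw [zpow_add₀ hvp0.ne', zpow_mul, ← h3, zpow_natCast, h2, zpow_zero]
  have h5 := zpow_right_injective₀ hvp0 hvp.ne h4
  exact ⟨l, by linarith⟩

end Fermat.Agent.AtS
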