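import Fermat.Agent.AtS.Inst
import Fermat.Agent.AtS.Val

/-!
# Slopes at `p` over `Q̄`
-/

set_option autoImplicit false
set_option linter.unusedSectionVars false
set_option linter.style.haveILetI false
set_option linter.unusedVariables false
set_option synthInstance.maxHeartbeats 400000

noncomputable section

namespace Fermat.Agent.AtS

open ModularCurve Fermat.Agent.GoodRed Fermat.Agent.Models Fermat.Agent.ModFun
open Fermat.Agent.Curves Fermat.Agent.AnJac AlgebraicCurve IsLocalRing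
open Fermat.Agent.HeckeQ Fermat.Agent.GalRep Fermat.Agent.SSMod
open Fermat.Agent.MazurP (nodes)
open Fermat.Agent.Mono
open scoped Pointwise

local notation "ℒ" => LaurentSeries
local notation "Qbar" => AlgebraicClosure ℚ
local notation "GQ" => Qbar ≃ₐ[ℚ] Qbar

variable {A : ValuationSubring Qbar} {q M : ℕ} [NeZero M] [hq : Fact q.Prime] [NeZero q]

theorem unram_K0 (hA : A.LiesOverPrime q) : Unram A q (Carayol.K0 A).toSubfield := by
  intro a ha ha0
  obtain ⟨n, u, -, hu, rfl⟩ := Carayol.exists_unit_mul hq.out hA (x := a) ha ha0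
  exact ⟨n, by rw [map_mul, hu, mul_one, map_zpow₀]⟩

theorem K0_lift (hA : A.LiesOverPrime q) (α : ResidueField A) :
    ∃ a : A, (a : Qbar) ∈ (Carayol.K0 A).toSubfield ∧ residue A a = α := by
  obtain ⟨a, ha⟩ := Carayol.π0_surjective hq.out hA α
  exact ⟨Carayol.inclA A a, (a : Carayol.K0 A).2, ha⟩

attribute [-instance] DivisionRing.toRatAlgebra

/-- **Slopes at `p`**: the final form. -/
theorem slopes_at_p [CharP (ResidueField A) q] [NeZero (q * M)]
    [IsFunctionField Qbar (modularFunctionFieldFullC Qbar (q * M))]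
    [IsFunctionField (ResidueField A) (modularFunctionFieldFullC (ResidueField A) M)]
    (hA : A.LiesOverPrime q) (hqM : Nat.Coprime q M) (ι : Qbar →+* ℂ)
    (hE : modularFunctionFieldFullC (ResidueField A) M =
      resField q (residue_surjective (R := A)) (q * M))
    (hr : GoodRed.RankOne (residue A))
    (h : JLift (residue A) M)
    {U : modularFunctionFieldFullC Qbar (q * M) → modularFunctionFieldFullC Qbar (q * M)}
    (hU : ∀ u, (U u : ℒ Qbar) = hW q (u : ℒ Qbar))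
    {Γ : Subgroup GQ} (hΓI : Γ ≤ A.inertiaSubgroupIn ℚ)
    (hfin : (Γ.subgroupOf (A.inertiaSubgroupIn ℚ)).FiniteIndex)
    (FU : ∀ b : Qbar, b ≠ 0 → (∀ σ ∈ A.inertiaSubgroupIn ℚ, σ (b ^ q) = b ^ q) →
      (∀ σ ∈ Γ, σ b = b) → ∃ l : ℤ, A.valuation (b * (q : Qbar) ^ l) = 1)
    {u g g' : modularFunctionFieldFullC Qbar (q * M)} (hu0 : u ≠ 0) (hg0 : g ≠ 0) (hg'0 : g' ≠ 0)
    (hΓ : ∀ σ ∈ Γ, ∃ f : modularFunctionFieldFullC Qbar (q * M), f ≠ 0 ∧
      galF (q * M) (σ : Qbar ≃+* Qbar) u = u * f ^ q)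
    (h1 : U (U u) = u * g ^ q) (h2 : U (U (al ι hqM u)) = al ι hqM u * g' ^ q)
    (hdiv : ∀ P : Place Qbar (modularFunctionFieldFullC Qbar (q * M)), (q : ℤ) ∣ P.ord u) :
    ∃ lam : ℤ, ∀ 𝔭 ∈ nodes (two (residue_surjective (R := A)) ι hqM _ hE) (h.coord hqM).t,
      (q : ℤ) ∣ 12 * so (two (residue_surjective (R := A)) ι hqM _ hE true) 𝔭 u -
        lam * 𝔭.ord ((two (residue_surjective (R := A)) ι hqM _ hE true).r
          (al ι hqM (uM Qbar q M))) := by
  haveI : Algebra.IsAlgebraic ℚ Qbar := AlgebraicClosure.isAlgebraic ℚ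
  haveI : @Algebra.IsAlgebraic ℤ Qbar _ _ (Ring.toIntAlgebra Qbar) := algebraic_int_Qbar
  have hq0 : q ≠ 0 := hq.out.ne_zero
  -- the canonical representative
  obtain ⟨m, f, hf0, hcan⟩ := exists_isCan (k := Qbar) (N := q * M) hq0 hu0 hdiv
  set v := u * f ^ q with hv
  have hv0 : v ≠ 0 := hcan.ne
  have hUm : ∀ x y, U (x * y) = U x * U y := by
    intro x y
    apply Subtype.ext
    rw [hU, MulMemClass.coe_mul, MulMemClass.coe_mul, hU, hU, hW_mul]
  have hU1 : U 1 = 1 := by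
    apply Subtype.ext
    rw [hU]
    exact hW_one q
  have hUpow : ∀ x (n : ℕ), U (x ^ n) = U x ^ n := by
    intro x n
    induction n with
    | zero => rw [pow_zero, pow_zero, hU1]
    | succ n ih => rw [pow_succ, pow_succ, hUm, ih]
  have hUne : ∀ x, x ≠ 0 → U x ≠ 0 := by
    intro x hx h0
    have := hUm x x⁻¹
    rw [mul_inv_cancel₀ hx, h0, zero_mul, hU1] at this
    exact one_ne_zero this
  have rel : ∀ (x y f : modularFunctionFieldFullC Qbar (q * M)), f ≠ 0 → U (U x) = x * y ^ q →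
      U (U (x * f ^ q)) = (x * f ^ q) * (y * U (U f) / f) ^ q := by
    intro x y f hf hxy
    have hfq : f ^ q ≠ 0 := pow_ne_zero _ hf
    rw [hUm, hUm, hUpow, hUpow, hxy, div_pow, mul_pow]
    field_simp
  have hfix : ∀ σ ∈ Γ, galF (q * M) (σ : Qbar ≃+* Qbar) v = v := by
    intro σ hσ
    obtain ⟨f', hf', e⟩ := hΓ σ hσ
    have hσf : galF (q * M) (σ : Qbar ≃+* Qbar) f ≠ 0 := by simpa using hf0
    refine hcan.unique hq0 (hcan.galF (σ : Qbar ≃+* Qbar))
      (g := f' * galF (q * M) (σ : Qbar ≃+* Qbar) f / f)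
      (div_ne_zero (mul_ne_zero hf' hσf) hf0) ?_
    have hfq : f ^ q ≠ 0 := pow_ne_zero _ hf0
    rw [hv, map_mul (galF (q * M) (σ : Qbar ≃+* Qbar)), e, map_pow, div_pow, mul_pow]
    field_simp
  have halv : al ι hqM v = al ι hqM u * (al ι hqM f) ^ q := by rw [hv, map_mul, map_pow]
  have half0 : al ι hqM f ≠ 0 := by simpa using hf0
  have hv1 : U (U v) = v * (g * U (U f) / f) ^ q := rel u g f hf0 h1
  have hv2 : U (U (al ι hqM v)) = al ι hqM v * (g' * U (U (al ι hqM f)) / al ι hqM f) ^ q := by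
    rw [halv]
    exact rel _ g' _ half0 h2
  -- values
  obtain ⟨α, hαA, hα0, hα1, hval⟩ := hval_exists hq.out hA hΓI hfin FU
  have hB : ∀ x : Qbar, (baseRes (residue A) (residue_surjective (R := A))).r x ≠ 0 ↔
      A.valuation x = 1 := fun x => baseRes_ne_zero_iff _ _
  have key := exists_lam (hπ := residue_surjective (R := A)) ι hqM hE hA hr h (unram_K0 hA)
    (K0_lift hA) hU (n := q) hq.out.pos hv0
    (div_ne_zero (mul_ne_zero hg0 (hUne _ (hUne _ hf0))) hf0)
    (div_ne_zero (mul_ne_zero hg'0 (hUne _ (hUne _ half0))) half0)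
    {τ | ∃ σ ∈ Γ, τ = (σ : Qbar ≃+* Qbar)} (by rintro τ ⟨σ, hσ, rfl⟩; exact hfix σ hσ) hv1 hv2
    hcan.dvd ⟨α, hαA, hα0, by
      by_contra h0
      exact hα1.ne ((hB α).1 h0), fun b hb hb1 hb2 m hm => by
      refine hval b hb (fun σ hσ => ?_) (fun σ hσ => ?_) m ((hB _).1 hm)
      · exact hb1 (σ : Qbar ≃+* Qbar) (actsAt_inertia hσ) fun x hx => (Carayol.mem_K0 A).1 hx σ hσ
      · exact hb2 (σ : Qbar ≃+* Qbar) (actsAt_inertia (hΓI hσ))
          (fun x hx => (Carayol.mem_K0 A).1 hx σ (hΓI hσ)) ⟨σ, hσ, rfl⟩⟩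
  refine slope_congr (f := f⁻¹) hu0 (inv_ne_zero hf0) ?_
  have e : u / f⁻¹ ^ q = v := by
    rw [inv_pow, div_inv_eq_mul]
  rw [e]
  exact key

end Fermat.Agent.AtS
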