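import Fermat.Agent.AtS.Pair

/-!
# Rational exact coordinates at nodes
-/

set_option autoImplicit false
set_option linter.unusedSectionVars false
set_option linter.style.haveILetI false

noncomputable section

namespace Fermat.Agent.AtS

open AlgebraicCurve Fermat.Agent.Curves Polynomial Fermat.Agent.Models

section

variable {k κ : Type*} [Field k] [Field κ] {B : Res k κ} {F : Type*} [Field F] [Algebra k F]
  {ι : Type*} {𝓕 : ι → Type*} [∀ i, Field (𝓕 i)] [∀ i, Algebra κ (𝓕 i)]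
  {C : ∀ i, Comp B F (𝓕 i)}
  [IsAlgClosed k] [IsAlgClosed κ] [IsFunctionField k F] [∀ i, IsFunctionField κ (𝓕 i)]
  [Fintype ι] [DecidableEq ι] [Nonempty ι]

/-- **Existence of an exact coordinate.** `E` is a set of functions whose values on the second
component are powers of the value of `q₀`, stable under improvements. -/
theorem exists_node_coordR (hB : B.RankOne) (hC : Incomp C) {t : F} (ht : IsGood C t)
    (hS : Surj C t) {M : Ideal (chart C t)} {i₁ i₂ : ι}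
    {𝔭₁ : Place κ (𝓕 i₁)} {𝔭₂ : Place κ (𝓕 i₂)} {g : F} {ϖ : k}
    (hg : DUnit C t M i₁ i₂ 𝔭₁ 𝔭₂ g ϖ) (E : Set F) {q₀ : k} (hq₀ : q₀ ∈ B.O) (hq₀r : B.r q₀ = 0)
    (hq₀0 : q₀ ≠ 0)
    (hval : ∀ Y ∈ E, Y ≠ 0 → ∃ n : ℤ, (C i₂).r (Y / algebraMap k F q₀ ^ n) ≠ 0)
    {m : ℕ} (hm : B.r (ϖ / q₀ ^ m) ≠ 0)
    (himp : ∀ Y ∈ E, ∀ n : ℕ, 0 < n → (C i₂).r (Y / algebraMap k F q₀ ^ n) ≠ 0 →
      0 ≤ 𝔭₂.ord ((C i₂).r (Y / algebraMap k F q₀ ^ n)) →
      ∃ Z : F, (∀ P ∈ gen t M, Z ∈ P.toValuationSubring) ∧ Z ∈ (C i₁).O ∧ Z ∈ (C i₂).O ∧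
        (C i₂).r Z = (C i₂).r (Y / algebraMap k F q₀ ^ n) ∧ Y - algebraMap k F q₀ ^ n * Z ∈ E)
    {Y₀ : F} (hY₀ : Y₀ ∈ E) (hY₀g : ∀ P ∈ gen t M, Y₀ ∈ P.toValuationSubring)
    (hY₀1 : (C i₁).r Y₀ ≠ 0) (hY₀o : 𝔭₁.ord ((C i₁).r Y₀) = 1)
    (hY₀2 : Y₀ ∈ (C i₂).O) (hY₀2' : (C i₂).r Y₀ = 0) :
    ∃ (Y : F) (n : ℕ), Y ∈ E ∧ 0 < n ∧ (n : ℤ) * 𝔭₁.ord ((C i₁).r g) = m ∧
      IsNode C t M i₁ i₂ 𝔭₁ 𝔭₂ Y (q₀ ^ n) := by
  have hM := isPoint_of_spec hB hC ht ⟨𝔭₁, hg.spec₁⟩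
  have hg0 := hg.g_ne
  have hϖF : algebraMap k F ϖ ≠ 0 := by simpa using hg.ϖ_ne
  have hqF : algebraMap k F q₀ ≠ 0 := by simpa using hq₀0
  obtain ⟨e, he⟩ := Int.eq_ofNat_of_zero_le (zero_le_one.trans (hg.one_le hB hC ht hS))
  have he1 : 1 ≤ e := by
    have := hg.one_le hB hC ht hS
    rw [he] at this
    exact_mod_cast this
  have hslope := hg.slope hB hC ht hS
  rw [he] at hslope
  -- the quotient `ϖ / q₀ ^ m`
  have hϖm : ϖ = q₀ ^ m * (ϖ / q₀ ^ m) := by field_simp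
  have hqpow : ∀ n : ℕ, 0 < n → q₀ ^ n ∈ B.O ∧ B.r (q₀ ^ n) = 0 := fun n hn =>
    ⟨pow_mem hq₀ n, by rw [Res.r_pow hq₀, hq₀r, zero_pow hn.ne']⟩
  -- one step
  have step : ∀ (Y : F) (n : ℕ), 0 < n → Y ∈ E → (∀ P ∈ gen t M, Y ∈ P.toValuationSubring) →
      (C i₁).r Y ≠ 0 → 𝔭₁.ord ((C i₁).r Y) = 1 → (C i₂).r (Y / algebraMap k F q₀ ^ n) ≠ 0 →
      n * e ≤ m ∧ ((∃ (Y : F) (n : ℕ), Y ∈ E ∧ 0 < n ∧ (n : ℤ) * 𝔭₁.ord ((C i₁).r g) = m ∧
        IsNode C t M i₁ i₂ 𝔭₁ 𝔭₂ Y (q₀ ^ n)) ∨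
        ∃ (Y' : F) (n' : ℕ), n < n' ∧ Y' ∈ E ∧ (∀ P ∈ gen t M, Y' ∈ P.toValuationSubring) ∧
          (C i₁).r Y' ≠ 0 ∧ 𝔭₁.ord ((C i₁).r Y') = 1 ∧
          (C i₂).r (Y' / algebraMap k F q₀ ^ n') ≠ 0) := by
    intro Y n hn hYE hYg hY1 hYo hY2
    have hY0 : Y ≠ 0 := Res.ne_zero_of_r hY1
    have hqn : algebraMap k F q₀ ^ n ≠ 0 := pow_ne_zero _ hqF
    -- `h = Y ^ e / g`
    have hh1 : (C i₁).r (Y ^ e / g) = (C i₁).r Y ^ e / (C i₁).r g := by
      rw [Res.r_div (pow_mem (Res.mem_of_r_ne_zero hY1) e) hg.r₁,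
        Res.r_pow (Res.mem_of_r_ne_zero hY1)]
    have hh10 : (C i₁).r (Y ^ e / g) ≠ 0 := by
      rw [hh1]; exact div_ne_zero (pow_ne_zero _ hY1) hg.r₁
    have hh1o : 𝔭₁.ord ((C i₁).r (Y ^ e / g)) = 0 := by
      rw [hh1, div_eq_mul_inv, 𝔭₁.ord_mul (pow_ne_zero _ hY1) (inv_ne_zero hg.r₁), 𝔭₁.ord_inv,
        ord_pow, hYo, he]
      ring
    have hhg : ∀ P ∈ gen t M, Y ^ e / g ∈ P.toValuationSubring := fun P hP => by
      rw [div_eq_mul_inv]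
      exact mul_mem (pow_mem (hYg P hP) e) ((mem_iff_ord P (inv_ne_zero hg0)).mpr
        (by rw [P.ord_inv, hg.gen P hP]; simp))
    -- `h' = (Y / q₀^n)^e / (g / ϖ)`
    set h' := (Y / algebraMap k F q₀ ^ n) ^ e / (g / algebraMap k F ϖ) with hh'
    have hh'2 : (C i₂).r h' = (C i₂).r (Y / algebraMap k F q₀ ^ n) ^ e /
        (C i₂).r (g / algebraMap k F ϖ) := by
      rw [hh', Res.r_div (pow_mem (Res.mem_of_r_ne_zero hY2) e) hg.r₂,
        Res.r_pow (Res.mem_of_r_ne_zero hY2)]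
    have hh'20 : (C i₂).r h' ≠ 0 := by
      rw [hh'2]; exact div_ne_zero (pow_ne_zero _ hY2) hg.r₂
    have hh'2o : 𝔭₂.ord ((C i₂).r h') =
        e * 𝔭₂.ord ((C i₂).r (Y / algebraMap k F q₀ ^ n)) + e := by
      rw [hh'2, div_eq_mul_inv, 𝔭₂.ord_mul (pow_ne_zero _ hY2) (inv_ne_zero hg.r₂), 𝔭₂.ord_inv,
        ord_pow, hslope]
      ring
    have hYeg0 : Y ^ e / g ≠ 0 := div_ne_zero (pow_ne_zero _ hY0) hg0
    have hgO : ∀ P ∈ gen t M, ∀ c : k, algebraMap k F c * (Y ^ e / g) ∈ P.toValuationSubring :=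
      fun P hP c => mul_mem (P.algebraMap_mem' c) (hhg P hP)
    rcases lt_trichotomy m (n * e) with hlt | heq | hgt
    · -- impossible
      exfalso
      have e1 : Y ^ e / g = algebraMap k F (q₀ ^ (n * e - m) * (ϖ / q₀ ^ m)⁻¹) * h' := by
        rw [hh', map_mul, map_inv₀, map_div₀, map_pow, map_pow, div_pow, ← pow_mul]
        have e2 : algebraMap k F q₀ ^ (n * e) =
            algebraMap k F q₀ ^ (n * e - m) * algebraMap k F q₀ ^ m := by
          rw [← pow_add]; congr 1; omega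
        rw [e2]
        field_simp
      obtain ⟨h1, h2⟩ := hqpow (n * e - m) (by omega)
      have h3 : q₀ ^ (n * e - m) * (ϖ / q₀ ^ m)⁻¹ ∈ B.O ∧
          B.r (q₀ ^ (n * e - m) * (ϖ / q₀ ^ m)⁻¹) = 0 := by
        refine ⟨mul_mem h1 (Res.inv_mem_of_r hm), ?_⟩
        rw [Res.r_mul h1 (Res.inv_mem_of_r hm), h2, zero_mul]
      obtain ⟨h4, h5⟩ := DUnit.r_small (C := C) (i := i₂) h3.1 h3.2 (Res.mem_of_r_ne_zero hh'20)
      rw [← e1] at h4 h5
      have h6 := DUnit.one_le_ord_of hB hC ht hS hg.spec₁ hg.spec₂ hhg (fun i hi => by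
        rcases hg.branch i hi with rfl | rfl
        · exact Res.mem_of_r_ne_zero hh10
        · exact h4) hh10 h5
      omega
    · -- exact coordinate
      refine ⟨heq.ge, Or.inl ⟨Y, n, hYE, hn, by rw [he, heq]; push_cast; ring, ?_⟩⟩
      have e1 : Y ^ e / g = algebraMap k F (ϖ / q₀ ^ m)⁻¹ * h' := by
        rw [hh', map_inv₀, map_div₀, map_pow, div_pow, ← pow_mul, ← heq]
        field_simp
      have h1 := (C i₂).r_algebraMap_ne_zero (Res.r_inv_ne_zero hm)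
      have h2 : (C i₂).r (Y ^ e / g) ≠ 0 := by
        rw [e1]; exact Res.r_mul_ne_zero h1 hh'20
      have hxO : ∀ l, (spec t M l).Nonempty → Y ^ e / g ∈ (C l).O := fun i hi => by
        rcases hg.branch i hi with rfl | rfl
        · exact Res.mem_of_r_ne_zero hh10
        · exact Res.mem_of_r_ne_zero h2
      obtain ⟨-, h3⟩ := DUnit.ord_zero_of hB hC ht hS hg.spec₁ hg.spec₂ hhg hxO hh10 hh1o
      have h4 : 𝔭₂.ord ((C i₂).r (Y ^ e / g)) =
          e * 𝔭₂.ord ((C i₂).r (Y / algebraMap k F q₀ ^ n)) + e := by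
        rw [e1, Res.r_mul (Res.mem_of_r_ne_zero h1) (Res.mem_of_r_ne_zero hh'20),
          𝔭₂.ord_mul h1 hh'20, hh'2o, (C i₂).r_algebraMap _ (Res.inv_mem_of_r hm),
          ord_algebraMap, zero_add]
      rw [h3] at h4
      have h5 : 𝔭₂.ord ((C i₂).r (Y / algebraMap k F q₀ ^ n)) = -1 := by
        have he0 : (e : ℤ) ≠ 0 := by exact_mod_cast (by omega : e ≠ 0)
        have : (e : ℤ) * (𝔭₂.ord ((C i₂).r (Y / algebraMap k F q₀ ^ n)) + 1) = 0 := by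
          rw [mul_add, mul_one]; exact h4.symm
        have := (mul_eq_zero.mp this).resolve_left he0
        omega
      have hcnt := local_conserve' hB hC ht hS hM hYeg0 (fun i hi => by
        rcases hg.branch i hi with rfl | rfl
        · exact hh10
        · exact h2)
      rw [hg.sum_eq ht hS, hh1o, h3, add_zero] at hcnt
      have h6 : ∀ P ∈ gen t M, P.ord (Y ^ e / g) = 0 := fun P hP => by
        have h7 := le_cnt (S := gen t M) (x := Y ^ e / g) (fun Q hQ =>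
          (mem_iff_ord Q hYeg0).mp (hhg Q hQ)) hP
        have h8 := (mem_iff_ord P hYeg0).mp (hhg P hP)
        omega
      exact {
        ne := hg.ne
        spec₁ := hg.spec₁
        spec₂ := hg.spec₂
        others := hg.others
        ϖ_ne := pow_ne_zero _ hq₀0
        ϖ_mem := (hqpow n hn).1
        ϖ_r := (hqpow n hn).2
        r₁ := hY1
        ord₁ := hYo
        r₂ := by rw [map_pow]; exact hY2
        ord₂ := by rw [map_pow]; exact h5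
        gen := fun P hP => by
          have h9 := h6 P hP
          rw [div_eq_mul_inv, P.ord_mul (pow_ne_zero _ hY0) (inv_ne_zero hg0), P.ord_inv,
            hg.gen P hP, ord_pow, neg_zero, add_zero] at h9
          exact (mul_eq_zero.mp h9).resolve_left (by exact_mod_cast (by omega : e ≠ 0)) }
    · -- improvement
      refine ⟨hgt.le, Or.inr ?_⟩
      have e1 : h' = algebraMap k F (q₀ ^ (m - n * e) * (ϖ / q₀ ^ m)) * (Y ^ e / g) := by
        rw [hh', map_mul, map_div₀, map_pow, map_pow, div_pow, ← pow_mul]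
        have e2 : algebraMap k F q₀ ^ m =
            algebraMap k F q₀ ^ (m - n * e) * algebraMap k F q₀ ^ (n * e) := by
          rw [← pow_add]; congr 1; omega
        rw [e2]
        field_simp
      obtain ⟨h1, h2⟩ := hqpow (m - n * e) (by omega)
      have h3 : q₀ ^ (m - n * e) * (ϖ / q₀ ^ m) ∈ B.O ∧
          B.r (q₀ ^ (m - n * e) * (ϖ / q₀ ^ m)) = 0 := by
        refine ⟨mul_mem h1 (Res.mem_of_r_ne_zero hm), ?_⟩
        rw [Res.r_mul h1 (Res.mem_of_r_ne_zero hm), h2, zero_mul]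
      obtain ⟨h4, h5⟩ := DUnit.r_small (C := C) (i := i₁) h3.1 h3.2 (Res.mem_of_r_ne_zero hh10)
      rw [← e1] at h4 h5
      have h6 := DUnit.one_le_ord_of hB hC ht hS hg.spec₂ hg.spec₁
        (fun P hP => by rw [e1]; exact hgO P hP _) (fun i hi => by
        rcases hg.branch i hi with rfl | rfl
        · exact h4
        · exact Res.mem_of_r_ne_zero hh'20) hh'20 h5
      rw [hh'2o] at h6
      have h7 : 0 ≤ 𝔭₂.ord ((C i₂).r (Y / algebraMap k F q₀ ^ n)) := by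
        by_contra hneg
        have h8 : 𝔭₂.ord ((C i₂).r (Y / algebraMap k F q₀ ^ n)) ≤ -1 := by omega
        have h9 : (e : ℤ) * 𝔭₂.ord ((C i₂).r (Y / algebraMap k F q₀ ^ n)) ≤ e * (-1) :=
          mul_le_mul_of_nonneg_left h8 (by positivity)
        omega
      obtain ⟨Z, hZg, hZ1, hZ2, hZr, hZE⟩ := himp Y hYE n hn hY2 h7
      have hsm : algebraMap k F q₀ ^ n * Z ∈ (C i₁).O ∧
          (C i₁).r (algebraMap k F q₀ ^ n * Z) = 0 := by
        rw [← map_pow]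
        exact DUnit.r_small (hqpow n hn).1 (hqpow n hn).2 hZ1
      set Y' := Y - algebraMap k F q₀ ^ n * Z with hY'
      have hY'1 : (C i₁).r Y' = (C i₁).r Y := by
        rw [hY', Res.r_sub (Res.mem_of_r_ne_zero hY1) hsm.1, hsm.2, sub_zero]
      have hY'10 : (C i₁).r Y' ≠ 0 := by rw [hY'1]; exact hY1
      have hY'0 : Y' ≠ 0 := Res.ne_zero_of_r hY'10
      have hY'2 : Y' / algebraMap k F q₀ ^ n ∈ (C i₂).O ∧
          (C i₂).r (Y' / algebraMap k F q₀ ^ n) = 0 := by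
        have e2 : Y' / algebraMap k F q₀ ^ n = Y / algebraMap k F q₀ ^ n - Z := by
          rw [hY']; field_simp
        rw [e2]
        exact ⟨sub_mem (Res.mem_of_r_ne_zero hY2) hZ2, by
          rw [Res.r_sub (Res.mem_of_r_ne_zero hY2) hZ2, hZr, sub_self]⟩
      obtain ⟨n', hn'⟩ := hval Y' hZE hY'0
      have hlt : (n : ℤ) < n' := by
        by_contra hle
        obtain ⟨l, hl⟩ := Int.eq_ofNat_of_zero_le (show 0 ≤ (n : ℤ) - n' by omega)
        apply hn'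
        have e3 : Y' / algebraMap k F q₀ ^ n' =
            algebraMap k F q₀ ^ l * (Y' / algebraMap k F q₀ ^ n) := by
          have e4 : algebraMap k F q₀ ^ n = algebraMap k F q₀ ^ l * algebraMap k F q₀ ^ n' := by
            rw [← zpow_natCast, ← zpow_natCast, ← zpow_add₀ hqF]
            congr 1
            omega
          rw [e4]
          field_simp
        rw [e3, ← map_pow, Res.r_mul ((C i₂).algebraMap_mem _ (pow_mem hq₀ l)) hY'2.1, hY'2.2,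
          mul_zero]
      obtain ⟨N', hN'⟩ := Int.eq_ofNat_of_zero_le (show 0 ≤ n' by omega)
      refine ⟨Y', N', by omega, hZE, fun P hP => ?_, hY'10, by rw [hY'1]; exact hYo, ?_⟩
      · rw [hY', ← map_pow]
        exact sub_mem (hYg P hP) (mul_mem (P.algebraMap_mem' _) (hZg P hP))
      · rw [hN', zpow_natCast] at hn'
        exact hn'
  -- iterate
  have iter : ∀ (d : ℕ) (Y : F) (n : ℕ), m < n + d → 0 < n → Y ∈ E →
      (∀ P ∈ gen t M, Y ∈ P.toValuationSubring) →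
      (C i₁).r Y ≠ 0 → 𝔭₁.ord ((C i₁).r Y) = 1 → (C i₂).r (Y / algebraMap k F q₀ ^ n) ≠ 0 →
      ∃ (Y : F) (n : ℕ), Y ∈ E ∧ 0 < n ∧ (n : ℤ) * 𝔭₁.ord ((C i₁).r g) = m ∧
      IsNode C t M i₁ i₂ 𝔭₁ 𝔭₂ Y (q₀ ^ n) := by
    intro d
    induction d with
    | zero =>
      intro Y n hmn hn hYE hYg hY1 hYo hY2
      have h1 := (step Y n hn hYE hYg hY1 hYo hY2).1
      have h2 : n * 1 ≤ n * e := Nat.mul_le_mul_left n he1
      omega
    | succ d ih =>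
      intro Y n hmn hn hYE hYg hY1 hYo hY2
      rcases (step Y n hn hYE hYg hY1 hYo hY2).2 with h | ⟨Y', n', hn', h1, h2, h3, h4, h5⟩
      · exact h
      · exact ih Y' n' (by omega) (by omega) h1 h2 h3 h4 h5
  have hY₀0 : Y₀ ≠ 0 := Res.ne_zero_of_r hY₀1
  obtain ⟨n₀, hn₀⟩ := hval Y₀ hY₀ hY₀0
  have hpos : 0 < n₀ := by
    by_contra hle
    obtain ⟨l, hl⟩ := Int.eq_ofNat_of_zero_le (show 0 ≤ -n₀ by omega)
    apply hn₀
    have e3 : Y₀ / algebraMap k F q₀ ^ n₀ = algebraMap k F q₀ ^ l * Y₀ := by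
      have e4 : n₀ = -(l : ℤ) := by omega
      rw [e4, zpow_neg, zpow_natCast, div_inv_eq_mul, mul_comm]
    rw [e3, ← map_pow, Res.r_mul ((C i₂).algebraMap_mem _ (pow_mem hq₀ l)) hY₀2, hY₀2', mul_zero]
  obtain ⟨N₀, hN₀⟩ := Int.eq_ofNat_of_zero_le hpos.le
  rw [hN₀, zpow_natCast] at hn₀
  exact iter (m + 1) Y₀ N₀ (by omega) (by omega) hY₀ hY₀g hY₀1 hY₀o hn₀

end

variable {k κ : Type*} [Field k] [Field κ] {B : Res k κ} {F 𝓕 : Type*} [Field F] [Algebra k F]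
  [Field 𝓕] [Algebra κ 𝓕] {C : Bool → Comp B F 𝓕}
  [IsAlgClosed k] [IsAlgClosed κ] [IsFunctionField k F] [IsFunctionField κ 𝓕]
  {t : F} {q : ℕ} {a b : F} {j : 𝓕} {R : Subfield F} {φ : 𝓕 ≃+* 𝓕} {g u : F} {q₀ : k}

theorem exists_isNodeR (h : Cross C t q a b j) (hl : CrossLift C t q j R φ g u q₀)
    {M : Ideal (chart C t)} {𝔭₁ 𝔭₂ : Place κ 𝓕} (h1 : 𝔭₁ ∈ spec t M true)
    (h2 : 𝔭₂ ∈ spec t M false) :
    ∃ (Y : F) (n : ℕ), Y ∈ R ∧ 0 < n ∧ (n : ℤ) * 𝔭₁.ord ((C true).r g) = 12 ∧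
      IsNode C t M true false 𝔭₁ 𝔭₂ Y (q₀ ^ n) := by
  have hM := isPoint_of_spec h.rank h.incomp h.good ⟨𝔭₁, h1⟩
  have hτ : Transcendental κ j := by
    intro hj
    have := h.good.trans true
    rw [h.r_t] at this
    exact this (hj.pow _)
  -- the starting function
  obtain ⟨f, hf, hf0, hf1⟩ := exists_uniformizer_affine hτ (h.j_mem h1)
  obtain ⟨x, -, hxR, -, hxC, -, hx1, -, hx2, -⟩ := hl.lift f hf
  have hf' := hl.φ_mem f hf
  obtain ⟨-, y, -, hyR, -, hyC, -, hy2, -, hy1⟩ := hl.lift _ hf'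
  set Y₀ := x - y ^ q with hY₀
  have hY₀C : Y₀ ∈ chart C t := sub_mem hxC (pow_mem hyC q)
  have hY₀2 : (C false).r Y₀ = 0 := by
    rw [hY₀, Res.r_sub (hxC.2 _) (pow_mem (hyC.2 _) q), Res.r_pow (hyC.2 _), hx2, hy2, sub_self]
  set w := φ.symm (φ.symm f) with hw
  have hw' := hl.φ_mem _ hf'
  have hY₀1 : (C true).r Y₀ = f - (w ^ q) ^ q := by
    rw [hY₀, Res.r_sub (hxC.2 _) (pow_mem (hyC.2 _) q), Res.r_pow (hyC.2 _), hx1, hy1]
  have hw0 : w ≠ 0 := by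
    rw [hw]; simpa using hf0
  have hfval : value 𝔭₁ f = 0 := by
    rw [value_eq_zero_iff 𝔭₁ (hf 𝔭₁ (h.j_mem h1)), val_lt_one_iff]
    right; omega
  have hwmem : w ∈ 𝔭₁.toValuationSubring := hw' 𝔭₁ (h.j_mem h1)
  have hwval : value 𝔭₁ w = 0 := by
    have h3 := loc_value_eq h.rank h.incomp h.good hM.isMaximal.isPrime h1 h2
      (chart_le_loc _ hY₀C)
    rw [hY₀1, hY₀2, DUnit.value_zero, value_sub' 𝔭₁ (hf 𝔭₁ (h.j_mem h1))
      (pow_mem (pow_mem hwmem q) q), hfval, zero_sub, neg_eq_zero,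
      value_pow' 𝔭₁ (pow_mem hwmem q), value_pow' 𝔭₁ hwmem] at h3
    exact pow_eq_zero_iff (by have := h.two_le; omega) |>.mp
      (pow_eq_zero_iff (by have := h.two_le; omega) |>.mp h3)
  have hword : 0 < 𝔭₁.ord w := by
    rw [value_eq_zero_iff 𝔭₁ hwmem, val_lt_one_iff] at hwval
    exact hwval.resolve_left hw0
  have hwq : 𝔭₁.ord f < 𝔭₁.ord ((w ^ q) ^ q) := by
    rw [ord_pow, ord_pow, hf1]
    have h3 : (2 : ℤ) ≤ q := by exact_mod_cast h.two_le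
    have h4 : (2 : ℤ) ≤ q * 𝔭₁.ord w := by nlinarith
    nlinarith
  have hwq0 : (w ^ q) ^ q ≠ 0 := pow_ne_zero _ (pow_ne_zero _ hw0)
  have hne : f - (w ^ q) ^ q ≠ 0 := by
    intro h3
    rw [sub_eq_zero] at h3
    rw [← h3] at hwq
    exact lt_irrefl _ hwq
  have hord : 𝔭₁.ord (f - (w ^ q) ^ q) = 1 := by
    rw [sub_eq_add_neg, (ord_add_eq_left 𝔭₁ hf0
      (Or.inr (by rw [ord_neg 𝔭₁]; exact hwq))).2, hf1]
  refine exists_node_coordR h.rank h.incomp h.good h.surj (CrossLift.dunit h hl h1 h2) (R : Set F) hl.q_mem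
    hl.q_r hl.q_ne hl.hval (m := 12) ?_ ?_ (Y₀ := Y₀) (sub_mem hxR (pow_mem hyR q))
    (fun P hP => hY₀C.1 P hP.1) ?_ ?_ (hY₀C.2 _) hY₀2
  · rw [div_self (pow_ne_zero _ hl.q_ne), Res.r_one]
    exact one_ne_zero
  · intro Y hY n hn hYr hYo
    obtain ⟨d, hd, hd0, hdf⟩ := exists_denominator hτ (h.j_mem h2)
      ((mem_iff_ord 𝔭₂ hYr).mpr hYo)
    obtain ⟨-, x₁, -, hx₁R, -, hx₁C, -, hx₁2, -, hx₁1⟩ := hl.lift _ hdf
    obtain ⟨-, x₂, -, hx₂R, -, hx₂C, -, hx₂2, -, hx₂1⟩ := hl.lift _ hd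
    have hdne : d ≠ 0 := by
      rintro rfl
      exact hd0 (DUnit.value_zero 𝔭₂)
    have hr2 : (C false).r x₂ ≠ 0 := by rw [hx₂2]; exact hdne
    have hr1 : (C true).r x₂ ≠ 0 := by
      rw [hx₂1]
      exact pow_ne_zero _ (by simpa using hdne)
    refine ⟨x₁ / x₂, fun P hP => ?_, ?_, ?_, ?_, ?_⟩
    · rw [div_eq_mul_inv]
      refine mul_mem (hx₁C.1 P hP.1) ?_
      have hx₂M : (⟨x₂, hx₂C⟩ : chart C t) ∉ M := by
        rw [h2.2]
        show value 𝔭₂ ((C false).r x₂) ≠ 0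
        rw [hx₂2]
        exact hd0
      have h3 : value P x₂ ≠ 0 := fun h4 => hx₂M ((hP.2.2 _).mpr (by
        show B.r (value P x₂) = 0
        rw [h4, Res.r_zero]))
      exact (value_inv' (hx₂C.1 P hP.1) h3).1
    · rw [div_eq_mul_inv]
      exact mul_mem (hx₁C.2 _) (Res.inv_mem_of_r hr1)
    · rw [div_eq_mul_inv]
      exact mul_mem (hx₁C.2 _) (Res.inv_mem_of_r hr2)
    · rw [Res.r_div (hx₁C.2 _) hr2, hx₁2, hx₂2, mul_div_cancel_left₀ _ hdne]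
    · exact sub_mem hY (mul_mem (pow_mem hl.q_rat n) (div_mem hx₁R hx₂R))
  · rw [hY₀1]; exact hne
  · rw [hY₀1]; exact hord


end Fermat.Agent.AtS
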