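import Fermat.Agent.AtS.NodeLem

/-!
# Explicit local generators at a node and their scales
-/

set_option autoImplicit false
set_option linter.unusedSectionVars false
set_option linter.style.haveILetI false

noncomputable section

namespace Fermat.Agent.AtS

open AlgebraicCurve Fermat.Agent.Curves Polynomial Fermat.Agent.Models Fermat.Agent.Mono

variable {k κ : Type*} [Field k] [Field κ] {B : Res k κ} {F : Type*} [Field F] [Algebra k F]
  {ι : Type*} {𝓕 : ι → Type*} [∀ i, Field (𝓕 i)] [∀ i, Algebra κ (𝓕 i)]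
  {C : ∀ i, Comp B F (𝓕 i)}
  [IsAlgClosed k] [IsAlgClosed κ] [IsFunctionField k F] [∀ i, IsFunctionField κ (𝓕 i)]
  [Fintype ι] [DecidableEq ι] [Nonempty ι]

variable {t : F} {M : Ideal (chart C t)} {i₁ i₂ : ι}
  {𝔭₁ : Place κ (𝓕 i₁)} {𝔭₂ : Place κ (𝓕 i₂)}

/-- the coordinate `Y` at a place specialising to a node is small, and so is `ϖ / Y` -/
theorem coord_small (hB : B.RankOne) (hC : Incomp C) (ht : IsGood C t)
    (hS : Surj C t) {Y : F} {ϖ : k} (h : IsNode C t M i₁ i₂ 𝔭₁ 𝔭₂ Y ϖ) {P : Place k F}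
    (hP : P ∈ gen t M) : value P Y ∈ B.O ∧ B.r (value P Y) = 0 ∧ ϖ / value P Y ∈ B.O ∧
      B.r (ϖ / value P Y) = 0 := by
  have hM := isPoint_of_spec hB hC ht ⟨𝔭₁, h.spec₁⟩
  have hϖF : algebraMap k F ϖ ≠ 0 := by simpa using h.ϖ_ne
  have hY0 : Y ≠ 0 := Res.ne_zero_of_r h.r₁
  have hbr : ∀ i, (spec t M i).Nonempty → i = i₁ ∨ i = i₂ := by
    intro i hi
    by_contra! hne
    exact h.others i hne.1 hne.2 hi
  have hY2 : Y ∈ (C i₂).O ∧ (C i₂).r Y = 0 := by
    have e : Y = algebraMap k F ϖ * (Y / algebraMap k F ϖ) := by field_simp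
    have h1 := Res.mem_of_r_ne_zero h.r₂
    rw [e]
    refine ⟨mul_mem ((C i₂).algebraMap_mem _ h.ϖ_mem) h1, ?_⟩
    rw [Res.r_mul ((C i₂).algebraMap_mem _ h.ϖ_mem) h1, (C i₂).r_algebraMap_eq_zero h.ϖ_mem h.ϖ_r,
      zero_mul]
  have hYinv1 : algebraMap k F ϖ / Y ∈ (C i₁).O ∧ (C i₁).r (algebraMap k F ϖ / Y) = 0 := by
    rw [div_eq_mul_inv]
    refine ⟨mul_mem ((C i₁).algebraMap_mem _ h.ϖ_mem) (Res.inv_mem_of_r h.r₁), ?_⟩
    rw [Res.r_mul ((C i₁).algebraMap_mem _ h.ϖ_mem) (Res.inv_mem_of_r h.r₁),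
      (C i₁).r_algebraMap_eq_zero h.ϖ_mem h.ϖ_r, zero_mul]
  have hYloc : Y ∈ loc t M hM.isMaximal.isPrime := mem_loc_of hB hC ht hS hM
    (fun P hP => (mem_iff_ord P hY0).mpr (h.gen P hP).ge) fun i hi => by
      rcases hbr i hi with rfl | rfl
      · exact Res.mem_of_r_ne_zero h.r₁
      · exact hY2.1
  have hYiloc : algebraMap k F ϖ / Y ∈ loc t M hM.isMaximal.isPrime :=
    mem_loc_of hB hC ht hS hM (fun P hP => by
      rw [div_eq_mul_inv]
      exact mul_mem (P.algebraMap_mem' _) ((mem_iff_ord P (inv_ne_zero hY0)).mpr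
        (by rw [P.ord_inv, h.gen P hP]; simp))) fun i hi => by
      rcases hbr i hi with rfl | rfl
      · exact hYinv1.1
      · have := Res.inv_mem_of_r h.r₂
        rwa [inv_div] at this
  obtain ⟨hPY, hPYO⟩ := loc_mem_place hB hC ht _ hP hYloc
  obtain ⟨hPYi, hPYiO⟩ := loc_mem_place hB hC ht _ hP hYiloc
  have ha0 : value P Y ≠ 0 := (value_ne_zero_iff hY0 hPY).mpr (h.gen P hP)
  have hϖa : value P (algebraMap k F ϖ / Y) = ϖ / value P Y := by
    have h1 := value_inv' hPY ha0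
    rw [div_eq_mul_inv, value_mul P (P.algebraMap_mem' _) h1.1, h1.2, value_algebraMap,
      ← div_eq_mul_inv]
  refine ⟨hPYO, ?_, by rw [← hϖa]; exact hPYiO, ?_⟩
  · rw [loc_value_place hB hC ht _ hP h.spec₂ hYloc, hY2.2]
    exact DUnit.value_zero 𝔭₂
  · rw [← hϖa, loc_value_place hB hC ht _ hP h.spec₁ hYiloc, hYinv1.2]
    exact DUnit.value_zero 𝔭₁

open Classical in
/-- the local generator -/
def gN (t : F) (M : Ideal (chart C t)) (Y : F) (D : Divisor k F) : F :=
  D.prod fun P m => if P ∈ gen t M then (Y - algebraMap k F (value P Y)) ^ m else 1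

open Classical in
/-- its scale on the second component -/
def RN (t : F) (M : Ideal (chart C t)) (Y : F) (D : Divisor k F) : k :=
  D.prod fun P m => if P ∈ gen t M then (-value P Y) ^ m else 1

open Classical in
/-- the normalised generator on the first component -/
def G1 (t : F) (M : Ideal (chart C t)) (Y : F) (D : Divisor k F) : F :=
  D.prod fun P m => if P ∈ gen t M then (1 - algebraMap k F (value P Y) * Y⁻¹) ^ m else 1

open Classical in
/-- the normalised generator on the second component -/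
def G2 (t : F) (M : Ideal (chart C t)) (Y : F) (ϖ : k) (D : Divisor k F) : F :=
  D.prod fun P m => if P ∈ gen t M then
    (1 - algebraMap k F (ϖ / value P Y) * (Y / algebraMap k F ϖ)) ^ m else 1

open Classical in
/-- the local degree -/
def dN (t : F) (M : Ideal (chart C t)) (D : Divisor k F) : ℤ :=
  D.sum fun P m => if P ∈ gen t M then m else 0

section Props

variable (hB : B.RankOne) (hBc : B.Commens) (hC : Incomp C) (ht : IsGood C t)
    (hS : Surj C t) {Y : F} {ϖ : k} (h : IsNode C t M i₁ i₂ 𝔭₁ 𝔭₂ Y ϖ)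

include hB hBc hC ht hS h

theorem Y_sub_ne {P : Place k F} (hP : P ∈ gen t M) : Y - algebraMap k F (value P Y) ≠ 0 := by
  obtain ⟨-, h2, -, -⟩ := coord hB hBc hC ht hS h hP
  exact Res.ne_zero_of_r (C := (C i₁).toRes) (by rw [h2]; exact h.r₁)

theorem gN_ne_zero (D : Divisor k F) : gN t M Y D ≠ 0 := by
  classical
  rw [gN, Finsupp.prod]
  refine Finset.prod_ne_zero_iff.mpr fun P _ => ?_
  split_ifs with hP
  · exact zpow_ne_zero _ (Y_sub_ne hB hBc hC ht hS h hP)
  · exact one_ne_zero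

theorem RN_ne_zero (D : Divisor k F) : RN t M Y D ≠ 0 := by
  classical
  rw [RN, Finsupp.prod]
  refine Finset.prod_ne_zero_iff.mpr fun P _ => ?_
  split_ifs with hP
  · exact zpow_ne_zero _ (neg_ne_zero.mpr (coord hB hBc hC ht hS h hP).1)
  · exact one_ne_zero

theorem RN_add (D E : Divisor k F) : RN t M Y (D + E) = RN t M Y D * RN t M Y E := by
  classical
  rw [RN, RN, RN]
  refine Finsupp.prod_add_index' (fun P => by simp) fun P a b => ?_
  split_ifs with hP
  · exact zpow_add₀ (neg_ne_zero.mpr (coord hB hBc hC ht hS h hP).1) _ _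
  · simp

theorem RN_zero : RN t M Y (0 : Divisor k F) = 1 := by
  rw [RN, Finsupp.prod_zero_index]

theorem RN_neg (D : Divisor k F) : RN t M Y (-D) = (RN t M Y D)⁻¹ := by
  have h1 := RN_add hB hBc hC ht hS h D (-D)
  rw [add_neg_cancel, RN_zero hB hBc hC ht hS h] at h1
  exact eq_inv_of_mul_eq_one_right h1.symm

theorem RN_sub (D E : Divisor k F) : RN t M Y (D - E) = RN t M Y D / RN t M Y E := by
  rw [sub_eq_add_neg, RN_add hB hBc hC ht hS h, RN_neg hB hBc hC ht hS h, div_eq_mul_inv]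

theorem RN_nsmul (n : ℕ) (D : Divisor k F) : RN t M Y (n • D) = RN t M Y D ^ n := by
  induction n with
  | zero => rw [zero_smul, pow_zero, RN_zero hB hBc hC ht hS h]
  | succ n ih => rw [succ_nsmul, RN_add hB hBc hC ht hS h, ih, pow_succ]

theorem RN_map {σ : F ≃+* F} {σ₀ : k ≃+* k} {s : Place k F ≃ Place k F}
    (hi : Inertial C σ σ₀ s) (hi' : Inertial C σ.symm σ₀.symm s.symm) (hσt : σ t = t)
    (hσY : σ Y = Y) (D : Divisor k F) :
    RN t M Y (Finsupp.mapDomain s D) = σ₀ (RN t M Y D) := by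
  classical
  have hM := isPoint_of_spec hB hC ht ⟨𝔭₁, h.spec₁⟩
  have hY0 : Y ≠ 0 := Res.ne_zero_of_r h.r₁
  rw [RN, RN, Finsupp.prod_mapDomain_index_inj s.injective, Finsupp.prod, Finsupp.prod, map_prod]
  refine Finset.prod_congr rfl fun P _ => ?_
  by_cases hP : P ∈ gen t M
  · have hsP := (hi.gen_iff' hB hC ht hS hi' hσt hM).mp hP
    rw [if_pos hP, if_pos hsP, map_zpow₀, map_neg]
    have hPY : Y ∈ P.toValuationSubring := (mem_iff_ord P hY0).mpr (h.gen P hP).ge
    have := (hi.value_eq hPY).2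
    rw [hσY] at this
    rw [this]
  · have hsP : s P ∉ gen t M := fun h1 => hP ((hi.gen_iff' hB hC ht hS hi' hσt hM).mpr h1)
    rw [if_neg hP, if_neg hsP, map_one]

theorem gN_ord (D : Divisor k F) {Q : Place k F} (hQ : Q ∈ gen t M) :
    Q.ord (gN t M Y D) = D Q := by
  classical
  rw [gN, Finsupp.prod, ord_prod Q _ _ fun P _ => by
    split_ifs with hP
    · exact zpow_ne_zero _ (Y_sub_ne hB hBc hC ht hS h hP)
    · exact one_ne_zero]
  have h2 : ∀ P ∈ D.support, Q.ord (if P ∈ gen t M then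
      (Y - algebraMap k F (value P Y)) ^ D P else 1) = if Q = P then D P else 0 := by
    intro P _
    split_ifs with hP hPQ hPQ
    · rw [ord_zpow', (coord hB hBc hC ht hS h hP).2.2.2 Q hQ, if_pos hPQ, mul_one]
    · rw [ord_zpow', (coord hB hBc hC ht hS h hP).2.2.2 Q hQ, if_neg hPQ, mul_zero]
    · subst hPQ
      exact absurd hQ hP
    · simp
  rw [Finset.sum_congr rfl h2, Finset.sum_ite_eq]
  split_ifs with h3
  · rfl
  · exact (Finsupp.notMem_support_iff.mp h3).symm

theorem Y_inv : Y⁻¹ ∈ (C i₁).O ∧ 𝔭₁.ord ((C i₁).r Y⁻¹) < 0 := by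
  refine ⟨Res.inv_mem_of_r h.r₁, ?_⟩
  rw [Res.r_inv h.r₁, 𝔭₁.ord_inv, h.ord₁]
  omega

theorem Y_div : Y / algebraMap k F ϖ ∈ (C i₂).O ∧
    𝔭₂.ord ((C i₂).r (Y / algebraMap k F ϖ)) < 0 := by
  refine ⟨Res.mem_of_r_ne_zero h.r₂, ?_⟩
  rw [h.ord₂]
  omega

theorem G1_pp (D : Divisor k F) : PP B Y⁻¹ (G1 t M Y D) := by
  classical
  rw [G1, Finsupp.prod]
  refine PP.prod _ _ fun P _ => ?_
  split_ifs with hP
  · obtain ⟨h1, h2, -, -⟩ := coord_small hB hC ht hS h hP
    exact (PP.sub (C := C i₁) h1 h2 (Y_inv hB hBc hC ht hS h).1).zpow _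
  · exact PP.one

theorem G2_pp (D : Divisor k F) : PP B (Y / algebraMap k F ϖ) (G2 t M Y ϖ D) := by
  classical
  rw [G2, Finsupp.prod]
  refine PP.prod _ _ fun P _ => ?_
  split_ifs with hP
  · obtain ⟨-, -, h1, h2⟩ := coord_small hB hC ht hS h hP
    exact (PP.sub (C := C i₂) h1 h2 (Y_div hB hBc hC ht hS h).1).zpow _
  · exact PP.one

theorem gN_eq₁ (D : Divisor k F) : gN t M Y D = Y ^ dN t M D * G1 t M Y D := by
  classical
  have hY0 : Y ≠ 0 := Res.ne_zero_of_r h.r₁
  rw [gN, G1, dN, Finsupp.prod, Finsupp.prod, Finsupp.sum]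
  have e : Y ^ (∑ P ∈ D.support, if P ∈ gen t M then D P else 0) =
      ∏ P ∈ D.support, Y ^ (if P ∈ gen t M then D P else 0) := by
    induction D.support using Finset.induction_on with
    | empty => simp
    | insert a s ha ih => rw [Finset.sum_insert ha, Finset.prod_insert ha, zpow_add₀ hY0, ih]
  rw [e, ← Finset.prod_mul_distrib]
  refine Finset.prod_congr rfl fun P _ => ?_
  split_ifs with hP
  · rw [← mul_zpow]
    congr 1
    field_simp
  · simp

theorem gN_eq₂ (D : Divisor k F) :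
    gN t M Y D = algebraMap k F (RN t M Y D) * G2 t M Y ϖ D := by
  classical
  have hϖF : algebraMap k F ϖ ≠ 0 := by simpa using h.ϖ_ne
  rw [gN, G2, RN, Finsupp.prod, Finsupp.prod, Finsupp.prod, map_prod, ← Finset.prod_mul_distrib]
  refine Finset.prod_congr rfl fun P _ => ?_
  split_ifs with hP
  · have h1 := (coord hB hBc hC ht hS h hP).1
    have h2 : algebraMap k F (value P Y) ≠ 0 := by simpa using h1
    rw [map_zpow₀, ← mul_zpow]
    congr 1
    rw [map_neg, map_div₀]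
    field_simp
    ring
  · simp

/-- **Values at a node**: if `x` is constant modulo `α` on both branches then the scale of its
divisor is the quotient of the constants. -/
theorem node_val {α : k} (hα : α ∈ B.O) (hα0 : α ≠ 0) (hαr : B.r α = 0) {x : F}
    {c₁ c₂ : k} (hc₁ : c₁ ≠ 0) (hc₂ : c₂ ≠ 0) (h1 : Cl (C i₁) α (algebraMap k F c₁ * x))
    (h2 : Cl (C i₂) α (algebraMap k F c₂ * x)) {E : Divisor k F}
    (hE : ∀ P ∈ gen t M, P.ord x = E P) :
    ClB B α (c₁ / (c₂ * RN t M Y E)) := by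
  classical
  have hM := isPoint_of_spec hB hC ht ⟨𝔭₁, h.spec₁⟩
  have hY0 : Y ≠ 0 := Res.ne_zero_of_r h.r₁
  have hc₁F : algebraMap k F c₁ ≠ 0 := by simpa using hc₁
  have hc₂F : algebraMap k F c₂ ≠ 0 := by simpa using hc₂
  have hR0 := RN_ne_zero hB hBc hC ht hS h E
  have hRF : algebraMap k F (RN t M Y E) ≠ 0 := by simpa using hR0
  have hg0 := gN_ne_zero hB hBc hC ht hS h E
  have h1r := h1.r hα hαr
  have h2r := h2.r hα hαr
  have hx0 : x ≠ 0 := right_ne_zero_of_mul (h1.ne_zero hα hαr)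
  have hbr : ∀ i, (spec t M i).Nonempty → i = i₁ ∨ i = i₂ := by
    intro i hi
    by_contra! hne
    exact h.others i hne.1 hne.2 hi
  -- the local degree vanishes
  have hso1 : so (C i₁) 𝔭₁ x = 0 := by
    rw [so_eq (C i₁) 𝔭₁ (by rw [h1r]; exact one_ne_zero), h1r]; simp
  -- the scales of `x` on the two branches: conservation
  obtain ⟨-, hsl⟩ := slope_node hB hBc hC ht hS h (n := 1) hx0
    (fun P hP => by rw [hE P hP]; simp) (c := c₁) (by rw [h1r]; exact one_ne_zero)
    (g := gN t M Y E) (a := RN t M Y E) hR0 (fun P hP => gN_ord hB hBc hC ht hS h E hP)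
    (by
      rw [gN_eq₁ hB hBc hC ht hS h]
      refine Res.r_mul_ne_zero ?_ ?_
      · rw [Res.r_zpow h.r₁]; exact zpow_ne_zero _ h.r₁
      · rw [(G1_pp hB hBc hC ht hS h E).r (Y_inv hB hBc hC ht hS h).1]; exact one_ne_zero)
    (by
      rw [gN_eq₂ hB hBc hC ht hS h, mul_div_cancel_left₀ _ hRF,
        (G2_pp hB hBc hC ht hS h E).r (Y_div hB hBc hC ht hS h).1]
      exact one_ne_zero)
    (by
      rw [gN_eq₂ hB hBc hC ht hS h, mul_div_cancel_left₀ _ hRF,
        (G2_pp hB hBc hC ht hS h E).r (Y_div hB hBc hC ht hS h).1]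
      simp)
  obtain ⟨hdeg, -⟩ := slope_node hB hBc hC ht hS h (n := 1) hx0
    (fun P hP => by rw [hE P hP]; simp) (c := c₁) (by rw [h1r]; exact one_ne_zero)
    (g := gN t M Y E) (a := RN t M Y E) hR0 (fun P hP => gN_ord hB hBc hC ht hS h E hP)
    (by
      rw [gN_eq₁ hB hBc hC ht hS h]
      refine Res.r_mul_ne_zero ?_ ?_
      · rw [Res.r_zpow h.r₁]; exact zpow_ne_zero _ h.r₁
      · rw [(G1_pp hB hBc hC ht hS h E).r (Y_inv hB hBc hC ht hS h).1]; exact one_ne_zero)
    (by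
      rw [gN_eq₂ hB hBc hC ht hS h, mul_div_cancel_left₀ _ hRF,
        (G2_pp hB hBc hC ht hS h E).r (Y_div hB hBc hC ht hS h).1]
      exact one_ne_zero)
    (by
      rw [gN_eq₂ hB hBc hC ht hS h, mul_div_cancel_left₀ _ hRF,
        (G2_pp hB hBc hC ht hS h E).r (Y_div hB hBc hC ht hS h).1]
      simp)
  have hso2 : so (C i₂) 𝔭₂ x = 0 := by
    rw [so_eq (C i₂) 𝔭₂ (by rw [h2r]; exact one_ne_zero), h2r]; simp
  have hd0 : dN t M E = 0 := by
    rw [hso1, hso2, gN_eq₁ hB hBc hC ht hS h, Res.r_mul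
      (Res.mem_of_r_ne_zero (by rw [Res.r_zpow h.r₁]; exact zpow_ne_zero _ h.r₁))
      (Res.mem_of_r_ne_zero (by
        rw [(G1_pp hB hBc hC ht hS h E).r (Y_inv hB hBc hC ht hS h).1]; exact one_ne_zero)),
      (G1_pp hB hBc hC ht hS h E).r (Y_inv hB hBc hC ht hS h).1, mul_one, Res.r_zpow h.r₁,
      ord_zpow', h.ord₁] at hdeg
    simpa using hdeg.symm
  rw [hso2, neg_zero, zpow_zero, mul_one, pow_one] at hsl
  -- the constant is a unit
  have hcu : B.r (c₁ / (c₂ * RN t M Y E)) ≠ 0 := by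
    have h3 := scale_unit (C i₂) (x := x) (c := c₂) (c' := c₁ / RN t M Y E)
      (by rw [h2r]; exact one_ne_zero) hsl
    convert h3 using 2
    field_simp
  set W : F := algebraMap k F c₁ * x / gN t M Y E with hW
  have hWord : ∀ P ∈ gen t M, P.ord W = 0 := by
    intro P hP
    rw [hW, div_eq_mul_inv, P.ord_mul (mul_ne_zero hc₁F hx0) (inv_ne_zero hg0), P.ord_inv,
      P.ord_mul hc₁F hx0, ord_algebraMap, hE P hP, gN_ord hB hBc hC ht hS h E hP]
    ring
  have hW0 : W ≠ 0 := div_ne_zero (mul_ne_zero hc₁F hx0) hg0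
  have key := node_lemma hB hC ht hS h.spec₁ h.spec₂ hbr (Y_inv hB hBc hC ht hS h).1
    (Y_inv hB hBc hC ht hS h).2 (Y_div hB hBc hC ht hS h).1 (Y_div hB hBc hC ht hS h).2
    hα hα0 hαr (W := W) (fun P hP => (mem_iff_ord P hW0).mpr (hWord P hP).ge)
    (G1_pp hB hBc hC ht hS h E).inv (G2_pp hB hBc hC ht hS h E).inv hcu
    (by
      convert h1 using 1
      rw [hW, gN_eq₁ hB hBc hC ht hS h, hd0, zpow_zero, one_mul, div_inv_eq_mul]
      have : G1 t M Y E ≠ 0 := by
        intro h0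
        have := (G1_pp hB hBc hC ht hS h E).r (Y_inv hB hBc hC ht hS h).1
        rw [h0, Res.r_zero] at this
        exact zero_ne_one this
      field_simp)
    (by
      convert h2 using 1
      rw [hW, gN_eq₂ hB hBc hC ht hS h, map_div₀, map_mul]
      have : G2 t M Y ϖ E ≠ 0 := by
        intro h0
        have := (G2_pp hB hBc hC ht hS h E).r (Y_div hB hBc hC ht hS h).1
        rw [h0, Res.r_zero] at this
        exact zero_ne_one this
      field_simp)
  exact key.2.2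

end Props

end Fermat.Agent.AtS
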