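import Fermat.Agent.AtS.Iter
import Fermat.Agent.AtP.SplitU
import Fermat.Agent.SSMod.RamN

/-!
# The modular instance
-/

set_option autoImplicit false
set_option linter.unusedSectionVars false
set_option linter.style.haveILetI false
set_option linter.unusedVariables false
set_option synthInstance.maxHeartbeats 400000

noncomputable section

namespace Fermat.Agent.AtS

open ModularCurve Fermat.Agent.GoodRed Fermat.Agent.Models Fermat.Agent.ModFun
open Fermat.Agent.GenusX0 Fermat.Agent.Curves Fermat.Agent.AnJac AlgebraicCurve IsLocalRing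
open Fermat.Agent.HeckeQ Fermat.Agent.GalRep Fermat.Agent.SSMod
open Fermat.Agent.MazurP (nodes)
open Fermat.Agent.Mono
open scoped Pointwise

local notation "ℒ" => LaurentSeries

section General

variable {K κ : Type*} [Field K] [Field κ] {A : ValuationSubring K} {π : A →+* κ}
  {q M : ℕ} [NeZero M] [IsLocalHom π] [hq : Fact q.Prime] [CharP κ q]
  [IsAlgClosed K] [IsAlgClosed κ] [CharZero K] [NeZero q]

attribute [-instance] DivisionRing.toRatAlgebra

variable [IsFunctionField K (modularFunctionFieldFullC K (q * M))]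
  [IsFunctionField κ (modularFunctionFieldFullC κ M)]

theorem galF_ratF {N : ℕ} {L : Subfield K} {τ : K ≃+* K} (hτ : ∀ x ∈ L, τ x = x)
    {y : modularFunctionFieldFullC K N} (hy : y ∈ ratF L N) : galF N τ y = y := by
  unfold ratF at hy
  induction hy using Subfield.closure_induction with
  | mem y hy =>
    rcases hy with ⟨c, h, rfl⟩ | ⟨d, hd, hdN, rfl⟩
    · rw [galF_const, hτ c h]
    · apply Subtype.ext
      rw [coe_galF]
      haveI : NeZero d := ⟨hd⟩
      exact coeffMap_jqNModC (f := (τ : K →+* K)) d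
  | one => exact map_one _
  | add y z _ _ h1 h2 => rw [map_add, h1, h2]
  | neg y _ h1 => rw [map_neg, h1]
  | inv y _ h1 => rw [map_inv₀, h1]
  | mul y z _ _ h1 h2 => rw [map_mul, h1, h2]

variable (hπ : Function.Surjective π) (ι : K →+* ℂ) (hqM : Nat.Coprime q M)
    (hE : modularFunctionFieldFullC κ M = resField q hπ (q * M))

/-- rational lifts of all functions -/
theorem exists_lift_all {F 𝓕 : Type*} [Field F] [Field 𝓕] [Algebra K F] [Algebra κ 𝓕]
    [IsFunctionField K F] [IsFunctionField κ 𝓕] {B : Res K κ} {C : Bool → Comp B F 𝓕} {t : F} {j : 𝓕} {R : Subfield F}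
    {φ : 𝓕 ≃+* 𝓕} {g d : F} {q₀ : K} (hl : CrossLift C t q j R φ g d q₀)
    (hj : Transcendental κ j) (f : 𝓕) (hf : f ≠ 0) : ∃ x ∈ R, (C true).r x = f := by
  obtain ⟨p, hp0, hp, -⟩ := exists_clear hj hf
  have hp0' : Polynomial.aeval j p ≠ 0 := fun h => hj ⟨p, hp0, h⟩
  have h1 : Polynomial.aeval j p ∈ affineRing κ j :=
    (Algebra.adjoin_le (Set.singleton_subset_iff.mpr (self_mem_affineRing _)))
      (Polynomial.aeval_mem_adjoin_singleton κ _)
  have h2 : Polynomial.aeval j p * f ∈ affineRing κ j := by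
    intro u hu
    rw [mem_iff_ord u (mul_ne_zero hp0' hf)]
    exact hp u hu
  obtain ⟨x, -, hxR, -, hxC, -, hx, -⟩ := hl.lift _ h1
  obtain ⟨y, -, hyR, -, hyC, -, hy, -⟩ := hl.lift _ h2
  have hx0 : (C true).r x ≠ 0 := by rw [hx]; exact hp0'
  refine ⟨y / x, div_mem hyR hxR, ?_⟩
  rw [Res.r_div (hyC.2 true) hx0, hx, hy, mul_div_cancel_left₀ _ hp0']

/-- rational idempotents -/
theorem exists_idem_rat {F 𝓕 : Type*} [Field F] [Field 𝓕] [Algebra K F] [Algebra κ 𝓕]
    [IsFunctionField K F] [IsFunctionField κ 𝓕] {B : Res K κ} {C : Bool → Comp B F 𝓕} {t : F} {j : 𝓕} {R : Subfield F}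
    {φ : 𝓕 ≃+* 𝓕} {g d : F} {q₀ : K} (hl : CrossLift C t q j R φ g d q₀)
    (hj : Transcendental κ j) (hφ : φ.symm j = j) :
    ∃ e ∈ R, e ∈ (C true).O ∧ e ∈ (C false).O ∧ (C true).r e = 1 ∧ (C false).r e = 0 := by
  obtain ⟨x, y, hxR, hyR, hxC, hyC, h1, h2, h3, h4⟩ := hl.lift j (self_mem_affineRing _)
  rw [hφ] at h3 h4
  have hne : j - (j ^ q) ^ q ≠ 0 := by
    intro h0
    apply hj
    refine ⟨Polynomial.X - (Polynomial.X ^ q) ^ q, ?_, by simpa using h0⟩
    intro h5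
    have h6 := congrArg (fun p => Polynomial.coeff p 1) h5
    have h7 : (q * q) ≠ 1 := by
      have := hq.out.two_le
      nlinarith
    simp only [← pow_mul, Polynomial.coeff_sub, Polynomial.coeff_X_one, Polynomial.coeff_X_pow,
      Polynomial.coeff_zero] at h6
    rw [if_neg (fun h => h7 h.symm), sub_zero] at h6
    exact one_ne_zero h6
  have hx := fun i => hxC.2 i
  have hy := fun i => hyC.2 i
  have a1 : (C true).r (x - y ^ q) = j - (j ^ q) ^ q := by
    rw [Res.r_sub (hx true) (pow_mem (hy true) q), Res.r_pow (hy true), h1, h4]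
  have a2 : (C false).r (x - y ^ q) = 0 := by
    rw [Res.r_sub (hx false) (pow_mem (hy false) q), Res.r_pow (hy false), h3, h2, sub_self]
  have b1 : (C true).r (y - x ^ q) = 0 := by
    rw [Res.r_sub (hy true) (pow_mem (hx true) q), Res.r_pow (hx true), h4, h1, sub_self]
  have b2 : (C false).r (y - x ^ q) = j - (j ^ q) ^ q := by
    rw [Res.r_sub (hy false) (pow_mem (hx false) q), Res.r_pow (hx false), h2, h3]
  have m1 : ∀ i, x - y ^ q ∈ (C i).O := fun i => sub_mem (hx i) (pow_mem (hy i) q)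
  have m2 : ∀ i, y - x ^ q ∈ (C i).O := fun i => sub_mem (hy i) (pow_mem (hx i) q)
  have s1 : (C true).r ((x - y ^ q) + (y - x ^ q)) ≠ 0 := by
    rw [Res.r_add (m1 _) (m2 _), a1, b1, add_zero]; exact hne
  have s2 : (C false).r ((x - y ^ q) + (y - x ^ q)) ≠ 0 := by
    rw [Res.r_add (m1 _) (m2 _), a2, b2, zero_add]; exact hne
  refine ⟨(x - y ^ q) / ((x - y ^ q) + (y - x ^ q)), div_mem (sub_mem hxR (pow_mem hyR q))
    (add_mem (sub_mem hxR (pow_mem hyR q)) (sub_mem hyR (pow_mem hxR q))), ?_, ?_, ?_, ?_⟩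
  · rw [div_eq_mul_inv]; exact mul_mem (m1 _) (Res.inv_mem_of_r s1)
  · rw [div_eq_mul_inv]; exact mul_mem (m1 _) (Res.inv_mem_of_r s2)
  · rw [Res.r_div (m1 _) s1, Res.r_add (m1 _) (m2 _), a1, b1, add_zero, div_self hne]
  · rw [Res.r_div (m1 _) s2, a2, zero_div]

theorem cl_iff_near {F 𝓕 : Type*} [Field F] [Field 𝓕] [Algebra K F] [Algebra κ 𝓕]
    {B : Res K κ} {C : Comp B F 𝓕} {c : K} {x : F} : Cl C c x ↔ AtP.Near C c x := Iff.rfl

/-- the data for `X₀(qM)` -/
theorem iterDat [Algebra ℚ K] [Algebra.IsAlgebraic ℚ K] [Algebra.IsAlgebraic ℤ K]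
    (hA : A.LiesOverPrime q) (hr : GoodRed.RankOne π) (h : JLift π M)
    [HasPrim A q] [HasPrim K q] {L : Subfield K} (hunr : Unram A q L)
    (hL : ∀ α : κ, ∃ a : A, (a : K) ∈ L ∧ π a = α)
    {U : modularFunctionFieldFullC K (q * M) → modularFunctionFieldFullC K (q * M)}
    (hU : ∀ u, (U u : ℒ K) = hW q (u : ℒ K)) :
    IterDat (two hπ ι hqM _ hE) (al ι hqM) (fun x => U (U x)) (q * q)
      (fun x => (x : ℒ K).leadingCoeff) (ratF L (q * M))
      {τ : K ≃+* K // ActsAt π τ (RingEquiv.refl κ) ∧ ∀ x ∈ L, τ x = x}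
      (fun τ => galF (q * M) τ.1) (fun τ => τ.1) := by
  have hl := crossLift (hπ := hπ) ι hqM hE hA hr h hunr hL
  have hin : ∀ τ : {τ : K ≃+* K // ActsAt π τ (RingEquiv.refl κ) ∧ ∀ x ∈ L, τ x = x},
      Inertial (two hπ ι hqM _ hE) (galF (q * M) τ.1) τ.1 (placeE (q * M) τ.1) :=
    fun τ => inertial (hπ := hπ) ι hqM hE hA τ.2.1
  have hUc : ∀ c : K, U (algebraMap K _ c) = algebraMap K _ (c ^ q) := by
    intro c
    apply Subtype.ext
    rw [hU]
    have e : ∀ c : K, ((algebraMap K (modularFunctionFieldFullC K (q * M)) c :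
        modularFunctionFieldFullC K (q * M)) : ℒ K) = HahnSeries.C c := by
      intro c; rw [ModFun.C_eq_algebraMap]; rfl
    rw [e, e, hW_C]
  have hUm : ∀ x y, U (x * y) = U x * U y := by
    intro x y
    apply Subtype.ext
    rw [hU, MulMemClass.coe_mul, MulMemClass.coe_mul, hU, hU, hW_mul]
  have hUσ : ∀ (τ : K ≃+* K) x, galF (q * M) τ (U x) = U (galF (q * M) τ x) := by
    intro τ x
    apply Subtype.ext
    rw [coe_galF, hU, hU, coe_galF]
    exact coeffMap_hW q (τ : K →+* K) τ.injective _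
  refine ⟨al_const ι hqM, al_al ι hqM, fun x hx => ?_, fun τ c => galF_const τ.1 c,
    fun τ c hc => (hin τ).unit c hc, fun τ i x hx => (hin τ).mem i x hx,
    fun τ x => (al_galF ι hqM τ.1 x).symm, fun τ x => ?_, fun τ y hy => galF_ratF τ.2.2 hy,
    fun x y => ?_, fun c => ?_, fun x y => ?_, fun c => ?_, fun τ x => ?_, fun x hx => ?_,
    exists_lift_all hl transcendental_je, ?_, exists_idem_rat hl transcendental_je ?_⟩
  · rw [two_mem_al]; exact hx
  · rw [hUσ, hUσ]
  · rw [hUm, hUm]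
  · rw [hUc, hUc, ← pow_mul]
  · rw [MulMemClass.coe_mul, HahnSeries.leadingCoeff_mul]
  · have e : ((algebraMap K (modularFunctionFieldFullC K (q * M)) c :
        modularFunctionFieldFullC K (q * M)) : ℒ K) = HahnSeries.C c := by
      rw [ModFun.C_eq_algebraMap]; rfl
    rw [e, HahnSeries.C_apply, HahnSeries.leadingCoeff_of_single]
  · rw [coe_galF, leadingCoeff_coeffMap]
    rfl
  · exact HahnSeries.leadingCoeff_ne_zero.mpr fun h => hx (Subtype.ext h)
  · -- contraction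
    obtain ⟨ζ, hζ⟩ := (inferInstance : HasPrim A q).ex
    have hζ1 : (1 : A) - ζ ≠ 0 := by
      intro h0
      have h1 : ζ = 1 := Units.ext (by rw [Units.val_one]; exact (sub_eq_zero.mp h0).symm)
      exact hζ.ne_one hq.out.one_lt h1
    have hζ1' : π (1 - (ζ : A)) = 0 := by
      have h1 := map_root_eq_one q π (ξ := ζ) hζ.pow_eq_one
      have h2 := congrArg Units.val h1
      rw [Units.coe_map, Units.val_one] at h2
      rw [map_sub, map_one, sub_eq_zero]
      exact h2.symm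
    have hqA : (q : A) ≠ 0 := by
      intro h0
      have h1 := congrArg (fun z : A => (z : K)) h0
      simp only [ZeroMemClass.coe_zero] at h1
      have h2 : ((q : A) : K) = (q : K) := by simp
      rw [h2] at h1
      exact (Nat.cast_ne_zero.mpr hq.out.ne_zero) h1
    have hqπ : π (q : A) = 0 := by rw [map_natCast]; exact CharP.cast_eq_zero κ q
    obtain ⟨l₀, hl0, hl0', h1, h2, -⟩ := AtP.exists_eps hζ1 hζ1' hqA hqπ hqA hqπ
    refine ⟨(l₀ : K), l₀.2, fun h => hl0 (Subtype.ext h), ?_, ?_⟩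
    · rw [baseRes_r π hπ l₀.2]; exact hl0'
    · intro ε hε hε0 hεr hd α hα hα' f hf
      obtain ⟨d, hd, e⟩ := hd
      obtain ⟨d', hd', e'⟩ := hα'
      let ε' : A := ⟨ε, hε⟩
      let α' : A := ⟨α, hα⟩
      have k0 : ε' ∣ l₀ := ⟨⟨d, hd⟩, Subtype.ext e⟩
      have k1 : ε' ∣ α' := ⟨⟨d', hd'⟩, Subtype.ext e'⟩
      have hα0 : ε ≠ 0 := hε0
      have step : ∀ (a : A) (x : modularFunctionFieldFullC K (q * M)), ε' ∣ a →
          AtP.NearL π (a : K) (x : ℒ K) →
          AtP.NearL π ((a * ε' : A) : K) ((U x : modularFunctionFieldFullC K (q * M)) : ℒ K) := by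
        intro a x ha hx
        rw [hU]
        refine hx.contr hζ (mul_dvd_mul_left _ (k0.trans h1)) ?_ ?_
        · rw [mul_comm (q : A)]; exact mul_dvd_mul_left _ (k0.trans h2)
        · obtain ⟨l, hl⟩ : ∃ l, q = l + 1 := ⟨q - 1, (Nat.succ_pred_eq_of_pos hq.out.pos).symm⟩
          have hl0 : l ≠ 0 := by
            rintro rfl
            exact hq.out.one_lt.ne' hl
          conv_rhs => rw [hl, pow_succ']
          exact mul_dvd_mul_left _ (ha.trans (dvd_pow_self _ hl0))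
      rcases eq_or_ne α 0 with rfl | hα00
      · obtain ⟨y, hy, rfl⟩ := hf
        have e1 : U (U 1) = 1 := by
          have := hUc 1
          rw [one_pow, map_one] at this
          rw [this, this]
        have e2 : (1 : modularFunctionFieldFullC K (q * M)) + algebraMap K _ 0 * y = 1 := by
          rw [map_zero, zero_mul, add_zero]
        rw [e2]
        show Cl _ _ (U (U 1))
        rw [e1]
        exact Cl.one
      rw [cl_iff_near, AtP.near_true_iff ι hqM _ hE hα00] at hf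
      rw [cl_iff_near, AtP.near_true_iff ι hqM _ hE (mul_ne_zero hα00 hε0)]
      have s1 := step α' f k1 hf
      have s2 := step _ (U f) (k1.trans (dvd_mul_right _ _)) s1
      refine s2.mono ⟨ε', ?_⟩
      push_cast
      rfl
  · rw [RingEquiv.symm_apply_eq]
    exact (galF_je _).symm

variable {hπ} in
/-- **Slopes** of functions with `U² = 1`, invariant under a subgroup of inertia. -/
theorem exists_lam [Algebra ℚ K] [Algebra.IsAlgebraic ℚ K] [Algebra.IsAlgebraic ℤ K]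
    (hA : A.LiesOverPrime q) (hr : GoodRed.RankOne π) (h : JLift π M)
    [HasPrim A q] [HasPrim K q] {L : Subfield K} (hunr : Unram A q L)
    (hL : ∀ α : κ, ∃ a : A, (a : K) ∈ L ∧ π a = α)
    {U : modularFunctionFieldFullC K (q * M) → modularFunctionFieldFullC K (q * M)}
    (hU : ∀ u, (U u : ℒ K) = hW q (u : ℒ K)) {n : ℕ} (hn : 0 < n)
    {u g g' : modularFunctionFieldFullC K (q * M)} (hu0 : u ≠ 0) (hg0 : g ≠ 0) (hg'0 : g' ≠ 0)
    (Γ : Set (K ≃+* K)) (hΓ : ∀ τ ∈ Γ, galF (q * M) τ u = u)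
    (h1 : U (U u) = u * g ^ n) (h2 : U (U (al ι hqM u)) = al ι hqM u * g' ^ n)
    (hdiv : ∀ P : Place K (modularFunctionFieldFullC K (q * M)), (n : ℤ) ∣ P.ord u)
    (hval : ∃ α ∈ (baseRes π hπ).O, α ≠ 0 ∧ (baseRes π hπ).r α = 0 ∧ ∀ b : K, b ≠ 0 →
      (∀ τ : K ≃+* K, ActsAt π τ (RingEquiv.refl κ) → (∀ x ∈ L, τ x = x) →
        ClB (baseRes π hπ) α ((τ b / b) ^ n)) →
      (∀ τ : K ≃+* K, ActsAt π τ (RingEquiv.refl κ) → (∀ x ∈ L, τ x = x) → τ ∈ Γ → τ b = b) →
      ∀ m : ℤ, (baseRes π hπ).r (b ^ n * (q : K) ^ m) ≠ 0 → (n : ℤ) ∣ m) :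
    ∃ lam : ℤ, ∀ 𝔭 ∈ nodes (two hπ ι hqM _ hE) (h.coord hqM).t, (n : ℤ) ∣
      12 * so (two hπ ι hqM _ hE true) 𝔭 u -
        lam * 𝔭.ord ((two hπ ι hqM _ hE true).r (al ι hqM (uM K q M))) := by
  obtain ⟨α, hα, hα0, hαr, hval⟩ := hval
  have hc := cross (hπ := hπ) ι hqM hE hA hr h
  have hl := crossLift (hπ := hπ) ι hqM hE hA hr h hunr hL
  have D := iterDat hπ ι hqM hE hA hr h hunr hL hU
  obtain ⟨f, hf0, hfΓ, hcl⟩ := D.exists_almost (Γ := {τ | τ.1 ∈ Γ}) hc.rank hn hu0 hg0 hg'0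
    (fun τ hτ => hΓ τ.1 hτ) h1 h2 hα hα0 hαr
  have hu'0 : f ^ n * u ≠ 0 := mul_ne_zero (pow_ne_zero _ hf0) hu0
  have key : ∃ lam : ℤ, ∀ 𝔭 ∈ nodes (two hπ ι hqM _ hE) (h.coord hqM).t, (n : ℤ) ∣
      12 * so (two hπ ι hqM _ hE true) 𝔭 (f ^ n * u) -
        lam * 𝔭.ord ((two hπ ι hqM _ hE true).r (al ι hqM (uM K q M))) := by
    refine exists_slopeR hc hl hn.ne' hu'0 (fun P => ?_) hα hα0 hαr ?_
    · rw [P.ord_mul (pow_ne_zero _ hf0) hu0, ord_pow]
      exact (dvd_mul_right _ _).add (hdiv P)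
    · intro b hb hb1 hb2 m hm
      have hin : ∀ τ : K ≃+* K, ActsAt π τ (RingEquiv.refl κ) →
          Inertial (two hπ ι hqM _ hE) (galF (q * M) τ).symm τ.symm (placeE (q * M) τ).symm := by
        intro τ hτ
        have := inertial (hπ := hπ) ι hqM hE hA hτ.symm
        rw [placeE_symm] at this
        exact this
      refine hval b hb (fun τ hτ hτL => ?_) (fun τ hτ hτL hτΓ => ?_) m hm
      · exact hb1 (galF (q * M) τ) τ (placeE (q * M) τ)
          (inertial (hπ := hπ) ι hqM hE hA hτ) (hin τ hτ) (galF_t hqM h τ)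
          (fun y hy => galF_ratF hτL hy) (fun i => hcl ⟨τ, hτ, hτL⟩ i)
      · exact hb2 (galF (q * M) τ) τ (placeE (q * M) τ)
          (inertial (hπ := hπ) ι hqM hE hA hτ) (hin τ hτ) (galF_t hqM h τ)
          (fun y hy => galF_ratF hτL hy) (hfΓ ⟨τ, hτ, hτL⟩ hτΓ)
  refine slope_congr (f := f⁻¹) hu0 (inv_ne_zero hf0) ?_
  have e : u / f⁻¹ ^ n = f ^ n * u := by
    rw [inv_pow, div_inv_eq_mul]
    exact mul_comm _ _
  rw [e]
  exact key

end General

end Fermat.Agent.AtS
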