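import Fermat.Agent.AtS.Slope
import Fermat.Agent.AtP.Toric

/-!
# Iterating a contracting operator
-/

set_option autoImplicit false
set_option linter.unusedSectionVars false
set_option linter.style.haveILetI false

noncomputable section

namespace Fermat.Agent.AtS

open AlgebraicCurve Fermat.Agent.Curves Polynomial Fermat.Agent.Models

variable {k κ : Type*} [Field k] [Field κ] {B : Res k κ} {F : Type*} [Field F] [Algebra k F]
  {𝓕 : Type*} [Field 𝓕] [Algebra κ 𝓕] {C : Bool → Comp B F 𝓕}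

/-- depth of a small element -/
theorem exists_depth (C : Comp B F 𝓕) {x : F} (hx : x ∈ C.O) (h : C.r x = 0) (hx0 : x ≠ 0) :
    ∃ α ∈ B.O, α ≠ 0 ∧ B.r α = 0 ∧ ∃ y ∈ C.O, x = algebraMap k F α * y := by
  obtain ⟨c, hc0, hc⟩ := C.exists_scale x hx0
  have hcO : c ∉ B.O := fun hcO => hc (Res.r_mul_eq_zero (C.algebraMap_mem c hcO) hx h)
  have hcF : algebraMap k F c ≠ 0 := by simpa using hc0
  refine ⟨c⁻¹, Res.inv_mem_of_notMem hcO, inv_ne_zero hc0, Res.r_inv_of_notMem hcO, _,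
    Res.mem_of_r_ne_zero hc, ?_⟩
  rw [map_inv₀]
  field_simp

/-- two small elements have a common divisor which is one of them -/
theorem exists_common (B : Res k κ) {a b : k} (ha : a ≠ 0) (hb : b ≠ 0) :
    (∃ d ∈ B.O, a = b * d) ∨ (∃ d ∈ B.O, b = a * d) := by
  rcases B.O.mem_or_inv_mem (a / b) with h | h
  · left; exact ⟨_, h, by field_simp⟩
  · right
    rw [inv_div] at h
    exact ⟨_, h, by field_simp⟩

/-- Data for the iteration of a contracting operator. -/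
structure IterDat (C : Bool → Comp B F 𝓕) (w : F ≃+* F) (Φ : F → F) (q : ℕ) (lc : F → k)
    (R : Subfield F) (T : Type*) (σ : T → (F ≃+* F)) (σ₀ : T → (k ≃+* k)) : Prop where
  w_const : ∀ c, w (algebraMap k F c) = algebraMap k F c
  w_w : ∀ x, w (w x) = x
  w_mem : ∀ x, x ∈ (C true).O → w x ∈ (C false).O
  σ_const : ∀ τ c, σ τ (algebraMap k F c) = algebraMap k F (σ₀ τ c)
  σ_unit : ∀ τ c, c ≠ 0 → B.r (σ₀ τ c / c) ≠ 0
  σ_mem : ∀ τ i, ∀ x ∈ (C i).O, σ τ x ∈ (C i).O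
  σ_w : ∀ τ x, σ τ (w x) = w (σ τ x)
  σ_Φ : ∀ τ x, σ τ (Φ x) = Φ (σ τ x)
  σ_R : ∀ τ, ∀ y ∈ R, σ τ y = y
  Φ_mul : ∀ x y, Φ (x * y) = Φ x * Φ y
  Φ_const : ∀ c, Φ (algebraMap k F c) = algebraMap k F (c ^ q)
  lc_mul : ∀ x y, lc (x * y) = lc x * lc y
  lc_const : ∀ c, lc (algebraMap k F c) = c
  lc_σ : ∀ τ x, lc (σ τ x) = σ₀ τ (lc x)
  lc_ne : ∀ x, x ≠ 0 → lc x ≠ 0
  lift : ∀ f : 𝓕, f ≠ 0 → ∃ x ∈ R, (C true).r x = f
  contr : ∃ l₀ ∈ B.O, l₀ ≠ 0 ∧ B.r l₀ = 0 ∧ ∀ ε ∈ B.O, ε ≠ 0 → B.r ε = 0 →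
    (∃ d ∈ B.O, l₀ = ε * d) → ∀ α ∈ B.O, (∃ d ∈ B.O, α = ε * d) → ∀ f, Cl (C true) α f →
      Cl (C true) (α * ε) (Φ f)
  idem : ∃ e ∈ R, e ∈ (C true).O ∧ e ∈ (C false).O ∧ (C true).r e = 1 ∧ (C false).r e = 0

variable {w : F ≃+* F} {Φ : F → F} {q : ℕ} {lc : F → k} {R : Subfield F} {T : Type*}
  {σ : T → (F ≃+* F)} {σ₀ : T → (k ≃+* k)}

/-- semilinear automorphisms preserve congruences -/
theorem cl_semi {C : Comp B F 𝓕} {σ : F ≃+* F} {σ₀ : k ≃+* k}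
    (h1 : ∀ c, σ (algebraMap k F c) = algebraMap k F (σ₀ c))
    (h2 : ∀ c, c ≠ 0 → B.r (σ₀ c / c) ≠ 0) (h3 : ∀ x ∈ C.O, σ x ∈ C.O) {α : k} (hα : α ≠ 0)
    {x : F} (hx : Cl C α x) : Cl C α (σ x) := by
  obtain ⟨y, hy, rfl⟩ := hx
  refine ⟨algebraMap k F (σ₀ α / α) * σ y, mul_mem (C.algebraMap_mem _
    (Res.mem_of_r_ne_zero (h2 α hα))) (h3 y hy), ?_⟩
  have hcF : algebraMap k F α ≠ 0 := by simpa using hα
  rw [map_add, map_one, map_mul, h1, map_div₀]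
  field_simp

namespace IterDat

variable (D : IterDat C w Φ q lc R T σ σ₀)
include D

theorem Φ_one : Φ 1 = 1 := by
  have := D.Φ_const 1
  rwa [map_one, one_pow, map_one] at this

theorem Φ_ne {x : F} (hx : x ≠ 0) : Φ x ≠ 0 := by
  intro h
  have := D.Φ_mul x x⁻¹
  rw [mul_inv_cancel₀ hx, D.Φ_one, h, zero_mul] at this
  exact one_ne_zero this

theorem Φ_div (x : F) {y : F} (hy : y ≠ 0) : Φ (x / y) = Φ x / Φ y := by
  rw [eq_div_iff (D.Φ_ne hy), ← D.Φ_mul, div_mul_cancel₀ _ hy]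

theorem Φ_pow (x : F) (n : ℕ) : Φ (x ^ n) = Φ x ^ n := by
  induction n with
  | zero => rw [pow_zero, pow_zero, D.Φ_one]
  | succ n ih => rw [pow_succ, pow_succ, D.Φ_mul, ih]

theorem iter_mul (m : ℕ) (x y : F) : Φ^[m] (x * y) = Φ^[m] x * Φ^[m] y := by
  induction m with
  | zero => rfl
  | succ m ih => rw [Function.iterate_succ_apply', Function.iterate_succ_apply',
      Function.iterate_succ_apply', ih, D.Φ_mul]

theorem iter_ne (m : ℕ) {x : F} (hx : x ≠ 0) : Φ^[m] x ≠ 0 := by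
  induction m with
  | zero => exact hx
  | succ m ih => rw [Function.iterate_succ_apply']; exact D.Φ_ne ih

theorem iter_div (m : ℕ) (x : F) {y : F} (hy : y ≠ 0) : Φ^[m] (x / y) = Φ^[m] x / Φ^[m] y := by
  rw [eq_div_iff (D.iter_ne m hy), ← D.iter_mul, div_mul_cancel₀ _ hy]

theorem iter_const (m : ℕ) {c : k} (hc : c ≠ 0) : ∃ d : k, d ≠ 0 ∧
    Φ^[m] (algebraMap k F c) = algebraMap k F d := by
  induction m with
  | zero => exact ⟨c, hc, rfl⟩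
  | succ m ih =>
    obtain ⟨d, hd, h⟩ := ih
    exact ⟨d ^ q, pow_ne_zero _ hd, by rw [Function.iterate_succ_apply', h, D.Φ_const]⟩

theorem σ_iter (τ : T) (m : ℕ) (x : F) : σ τ (Φ^[m] x) = Φ^[m] (σ τ x) := by
  induction m with
  | zero => rfl
  | succ m ih => rw [Function.iterate_succ_apply', Function.iterate_succ_apply', D.σ_Φ, ih]

/-- constants are detected by the leading coefficient -/
theorem eq_one_of_root [IsAlgClosed k] {n : ℕ} (hn : 0 < n) {z : F} (hz : z ^ n = 1)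
    (hlc : lc z = 1) : z = 1 := by
  have halg : IsAlgebraic k z := ⟨X ^ n - 1, by
    intro h
    have := congrArg Polynomial.natDegree h
    rw [natDegree_zero, ← C_1, natDegree_X_pow_sub_C] at this
    omega, by simp [hz]⟩
  have hint : IsIntegral k z := halg.isIntegral
  obtain ⟨c, rfl⟩ := minpoly.mem_range_of_degree_eq_one k z
    (IsAlgClosed.degree_eq_one_of_irreducible k (minpoly.irreducible hint))
  rw [D.lc_const] at hlc
  rw [hlc, map_one]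


variable {Γ : Set T}

/-- normalised relation -/
theorem exists_norm [IsAlgClosed k] {n : ℕ} (hn : 0 < n) {u g : F} (hu0 : u ≠ 0) (hg0 : g ≠ 0)
    (hu : ∀ τ ∈ Γ, σ τ u = u) (h : Φ u = u * g ^ n) :
    ∃ (c : k) (g' : F), c ≠ 0 ∧ g' ≠ 0 ∧ (∀ τ ∈ Γ, σ τ g' = g') ∧
      Φ u = algebraMap k F c * (u * g' ^ n) := by
  have hl := D.lc_ne g hg0
  have hlF : algebraMap k F (lc g) ≠ 0 := by simpa using hl
  have hlu := D.lc_ne u hu0
  have hpow : ∀ (x : F) (n : ℕ), lc (x ^ n) = lc x ^ n := by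
    intro x n
    induction n with
    | zero =>
      rw [pow_zero, pow_zero]
      have := D.lc_const 1
      rwa [map_one] at this
    | succ n ih => rw [pow_succ, pow_succ, D.lc_mul, ih]
  have hg' : g / algebraMap k F (lc g) ≠ 0 := div_ne_zero hg0 hlF
  have e1 : Φ u = algebraMap k F (lc g ^ n) * (u * (g / algebraMap k F (lc g)) ^ n) := by
    rw [h, map_pow, div_pow]
    have := pow_ne_zero n hlF
    field_simp
  refine ⟨lc g ^ n, g / algebraMap k F (lc g), pow_ne_zero _ hl, hg', fun τ hτ => ?_, e1⟩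
  set g' := g / algebraMap k F (lc g) with hg'def
  have hlcg' : lc g' = 1 := by
    have h1 : lc g = lc g' * lc g := by
      conv_lhs => rw [show g = g' * algebraMap k F (lc g) by rw [hg'def]; field_simp]
      rw [D.lc_mul, D.lc_const]
    have h2 : lc g * (lc g' - 1) = 0 := by linear_combination -h1
    exact sub_eq_zero.mp ((mul_eq_zero.mp h2).resolve_left hl)
  -- the constant is fixed
  have hc : σ₀ τ (lc g ^ n) = lc g ^ n := by
    have h1 : lc (Φ u) = lc u * lc g ^ n := by rw [h, D.lc_mul, hpow]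
    have h2 : σ₀ τ (lc (Φ u)) = lc (Φ u) := by rw [← D.lc_σ, D.σ_Φ, hu τ hτ]
    have h3 : σ₀ τ (lc u) = lc u := by rw [← D.lc_σ, hu τ hτ]
    rw [h1, map_mul, h3] at h2
    exact mul_left_cancel₀ hlu h2
  have hcF : algebraMap k F (lc g ^ n) ≠ 0 := by
    rw [map_pow]; exact pow_ne_zero _ hlF
  have h4 : (σ τ g' / g') ^ n = 1 := by
    have h5 := congrArg (σ τ) e1
    rw [D.σ_Φ, hu τ hτ, map_mul (σ τ), map_mul (σ τ), D.σ_const, hc, hu τ hτ, map_pow (σ τ),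
      e1] at h5
    have h6 := mul_left_cancel₀ hcF h5
    have h7 := mul_left_cancel₀ hu0 h6
    rw [div_pow, ← h7, div_self (pow_ne_zero _ hg')]
  have h5 : lc (σ τ g' / g') = 1 := by
    have h6 : lc (σ τ g' / g') * lc g' = 1 := by
      rw [← D.lc_mul, div_mul_cancel₀ _ hg', D.lc_σ, hlcg', map_one]
    rwa [hlcg', mul_one] at h6
  exact (div_eq_one_iff_eq hg').mp (D.eq_one_of_root hn h4 h5)

/-- iterated relation -/
theorem exists_iter {n : ℕ} {u g' : F} {c : k} (hc : c ≠ 0) (hg' : g' ≠ 0)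
    (hg : ∀ τ ∈ Γ, σ τ g' = g') (h : Φ u = algebraMap k F c * (u * g' ^ n)) (m : ℕ) :
    ∃ (d : k) (f : F), d ≠ 0 ∧ f ≠ 0 ∧ (∀ τ ∈ Γ, σ τ f = f) ∧
      Φ^[m] u = algebraMap k F d * (u * f ^ n) := by
  induction m with
  | zero => exact ⟨1, 1, one_ne_zero, one_ne_zero, fun τ _ => map_one _, by simp⟩
  | succ m ih =>
    obtain ⟨d, f, hd, hf, hfΓ, e⟩ := ih
    refine ⟨d ^ q * c, g' * Φ f, mul_ne_zero (pow_ne_zero _ hd) hc, mul_ne_zero hg' (D.Φ_ne hf),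
      fun τ hτ => ?_, ?_⟩
    · rw [map_mul, hg τ hτ, D.σ_Φ, hfΓ τ hτ]
    · rw [Function.iterate_succ_apply', e, D.Φ_mul, D.Φ_mul, D.Φ_const, D.Φ_pow, h, map_mul,
        map_pow]
      ring

/-- approximation on the first component -/
theorem approx_true [IsAlgClosed k] (hB : B.RankOne) {n : ℕ} (hn : 0 < n) {u g : F} (hu0 : u ≠ 0)
    (hg0 : g ≠ 0) (hu : ∀ τ ∈ Γ, σ τ u = u) (h : Φ u = u * g ^ n) {β : k} (hβ : β ∈ B.O)
    (hβ0 : β ≠ 0) :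
    ∃ (c : k) (f s : F), c ≠ 0 ∧ f ≠ 0 ∧ s ≠ 0 ∧ (∀ τ ∈ Γ, σ τ f = f) ∧ (∀ τ, σ τ s = s) ∧
      Cl (C true) β (algebraMap k F c * (f ^ n * u) / s) := by
  obtain ⟨c₁, g', hc₁, hg', hgΓ, e1⟩ := D.exists_norm hn hu0 hg0 hu h
  obtain ⟨c₀, hc₀, hr⟩ := (C true).exists_scale u hu0
  obtain ⟨u₀, hu₀R, hu₀⟩ := D.lift _ hr
  have hu₀r : (C true).r u₀ ≠ 0 := by rw [hu₀]; exact hr
  have hu₀0 : u₀ ≠ 0 := Res.ne_zero_of_r hu₀r
  obtain ⟨l₀, hl₀, hl₀0, hl₀r, hcontr⟩ := D.contr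
  set x := algebraMap k F c₀ * u / u₀ with hx
  have hxO : x ∈ (C true).O := by
    rw [hx, div_eq_mul_inv]
    exact mul_mem (Res.mem_of_r_ne_zero hr) (Res.inv_mem_of_r hu₀r)
  have hxr : (C true).r x = 1 := by
    rw [hx, Res.r_div (Res.mem_of_r_ne_zero hr) hu₀r, hu₀, div_self hr]
  -- starting depth
  obtain ⟨ε, hε, hε0, hεr, ⟨d, hd, hld⟩, hstart⟩ : ∃ ε ∈ B.O, ε ≠ 0 ∧ B.r ε = 0 ∧
      (∃ d ∈ B.O, l₀ = ε * d) ∧ Cl (C true) ε x := by
    by_cases h1 : x = 1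
    · exact ⟨l₀, hl₀, hl₀0, hl₀r, ⟨1, one_mem _, by ring⟩, h1 ▸ Cl.one⟩
    obtain ⟨α, hα, hα0, hαr, y, hy, e⟩ := exists_depth (C true) (x := x - 1)
      (sub_mem hxO (one_mem _)) (by rw [Res.r_sub hxO (one_mem _), hxr, Res.r_one, sub_self])
      (sub_ne_zero.mpr h1)
    have hcl : Cl (C true) α x := ⟨y, hy, by rw [← e]; ring⟩
    rcases exists_common B hα0 hl₀0 with ⟨d, hd, e'⟩ | ⟨d, hd, e'⟩
    · exact ⟨l₀, hl₀, hl₀0, hl₀r, ⟨1, one_mem _, by ring⟩, hcl.mono hd e'⟩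
    · exact ⟨α, hα, hα0, hαr, ⟨d, hd, e'⟩, hcl⟩
  have hiter : ∀ m : ℕ, Cl (C true) (ε ^ (m + 1)) (Φ^[m] x) := by
    intro m
    induction m with
    | zero => rw [zero_add, pow_one]; exact hstart
    | succ m ih =>
      rw [Function.iterate_succ_apply', pow_succ]
      exact hcontr ε hε hε0 hεr ⟨d, hd, hld⟩ _ (pow_mem hε _)
        ⟨ε ^ m, pow_mem hε _, by ring⟩ _ ih
  obtain ⟨m, hm, -⟩ := hB ε hε hεr β⁻¹
  obtain ⟨c₂, f, hc₂, hf, hfΓ, e2⟩ := D.exists_iter hc₁ hg' hgΓ e1 m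
  obtain ⟨c₃, hc₃, e3⟩ := D.iter_const m hc₀
  refine ⟨c₃ * c₂, f, Φ^[m] u₀, mul_ne_zero hc₃ hc₂, hf, D.iter_ne m hu₀0, hfΓ, fun τ => ?_, ?_⟩
  · rw [D.σ_iter, D.σ_R τ u₀ hu₀R]
  · have e4 : Φ^[m] x = algebraMap k F (c₃ * c₂) * (f ^ n * u) / Φ^[m] u₀ := by
      rw [hx, D.iter_div m _ hu₀0, D.iter_mul, e3, e2, map_mul]
      ring
    rw [← e4]
    refine (hiter m).mono (mul_mem hε hm) ?_
    field_simp
    ring

/-- transport to the other component -/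
theorem cl_w {β : k} {x : F} (hx : Cl (C true) β x) : Cl (C false) β (w x) := by
  obtain ⟨y, hy, rfl⟩ := hx
  exact ⟨w y, D.w_mem y hy, by rw [map_add, map_one, map_mul, D.w_const]⟩

/-- an idempotent fixed by the automorphisms -/
theorem exists_sep (hB : B.RankOne) {c : k} (hc : c ≠ 0) :
    ∃ e ∈ R, (∃ y ∈ (C true).O, e = 1 + algebraMap k F c * y) ∧
      ∃ y ∈ (C false).O, e = algebraMap k F c * y := by
  obtain ⟨e, heR, he1, he2, h1, h2⟩ := D.idem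
  have he : ∀ i, e ∈ (C i).O := fun i => by cases i <;> assumption
  have hcF : algebraMap k F c ≠ 0 := by simpa using hc
  have h3 : (C true).r (1 - e) = 0 := by
    rw [Res.r_sub (one_mem _) (he true), Res.r_one, h1, sub_self]
  obtain ⟨N, hN, hN'⟩ := (C false).exists_pow_mul hB (he false) h2 (algebraMap k F c)⁻¹
  obtain ⟨N', hN1, hN1'⟩ := (C true).exists_pow_mul hB (sub_mem (one_mem _) (he true)) h3
    (algebraMap k F c)⁻¹
  set m := N + N' with hm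
  have hA : ∃ y ∈ (C false).O, e ^ m = algebraMap k F c * y := by
    refine ⟨e ^ N' * (e ^ N * (algebraMap k F c)⁻¹), mul_mem (pow_mem (he false) _) hN, ?_⟩
    rw [hm, pow_add]; field_simp
  have hB' : ∃ y ∈ (C true).O, (1 - e) ^ m = algebraMap k F c * y := by
    refine ⟨(1 - e) ^ N * ((1 - e) ^ N' * (algebraMap k F c)⁻¹),
      mul_mem (pow_mem (sub_mem (one_mem _) (he true)) _) hN1, ?_⟩
    rw [hm, pow_add]; field_simp
  obtain ⟨y₁, hy₁, e₁⟩ := hA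
  obtain ⟨y₂, hy₂, e₂⟩ := hB'
  rcases eq_or_ne m 0 with hm0 | hm0
  · rw [hm0, pow_zero] at e₁ e₂
    exact ⟨1, one_mem _, ⟨0, zero_mem _, by ring⟩, ⟨y₁, hy₁, e₁⟩⟩
  · have hdt : (C true).r (e ^ m + (1 - e) ^ m) ≠ 0 := by
      rw [Res.r_add (pow_mem (he true) _) (pow_mem (sub_mem (one_mem _) (he true)) _),
        Res.r_pow (he true), Res.r_pow (sub_mem (one_mem _) (he true)), h1, h3, one_pow,
        zero_pow hm0, add_zero]
      exact one_ne_zero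
    have hdf : (C false).r (e ^ m + (1 - e) ^ m) ≠ 0 := by
      rw [Res.r_add (pow_mem (he false) _) (pow_mem (sub_mem (one_mem _) (he false)) _),
        Res.r_pow (he false), Res.r_pow (sub_mem (one_mem _) (he false)), h2,
        Res.r_sub (one_mem _) (he false), Res.r_one, h2, sub_zero, one_pow,
        zero_pow hm0, zero_add]
      exact one_ne_zero
    have hd0 : e ^ m + (1 - e) ^ m ≠ 0 := Res.ne_zero_of_r hdt
    refine ⟨e ^ m / (e ^ m + (1 - e) ^ m), div_mem (pow_mem heR m)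
      (add_mem (pow_mem heR m) (pow_mem (sub_mem (one_mem _) heR) m)),
      ⟨-(y₂ * (e ^ m + (1 - e) ^ m)⁻¹),
      neg_mem (mul_mem hy₂ (Res.inv_mem_of_r hdt)), ?_⟩,
      ⟨y₁ * (e ^ m + (1 - e) ^ m)⁻¹, mul_mem hy₁ (Res.inv_mem_of_r hdf), ?_⟩⟩
    · have e3 : algebraMap k F c * -(y₂ * (e ^ m + (1 - e) ^ m)⁻¹) =
        -((algebraMap k F c * y₂) * (e ^ m + (1 - e) ^ m)⁻¹) := by ring
      rw [e3, ← e₂]
      field_simp
      ring
    · rw [← mul_assoc, ← e₁, div_eq_mul_inv]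

/-- simultaneous approximation -/
theorem exists_both (hB : B.RankOne) {a₁ a₂ : F} {c : k} (hcO : c ∈ B.O) (hc : c ≠ 0)
    (hc0 : B.r c = 0) (ha₁ : a₁ ≠ 0) (ha₂ : a₂ ≠ 0) (h₁ : ∀ τ ∈ Γ, σ τ a₁ = a₁)
    (h₂ : ∀ τ ∈ Γ, σ τ a₂ = a₂) :
    ∃ a : F, a ≠ 0 ∧ (∀ τ ∈ Γ, σ τ a = a) ∧ Cl (C true) c (a / a₁) ∧ Cl (C false) c (a / a₂) := by
  obtain ⟨d₁, hd₁, hd₁0, hd₁'⟩ := AtP.exists_denom (C := C true) (a₂ / a₁)
  obtain ⟨d₂, hd₂, hd₂0, hd₂'⟩ := AtP.exists_denom (C := C false) (a₁ / a₂)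
  obtain ⟨e, heR, ⟨y₁, hy₁, e₁⟩, ⟨y₂, hy₂, e₂⟩⟩ := D.exists_sep hB (c := c * d₁ * d₂)
    (mul_ne_zero (mul_ne_zero hc hd₁0) hd₂0)
  have k1 : Cl (C true) c ((e * a₁ + (1 - e) * a₂) / a₁) := by
    refine ⟨algebraMap k F (d₁ * d₂) * y₁ - algebraMap k F d₂ * y₁ *
      (algebraMap k F d₁ * (a₂ / a₁)), sub_mem (mul_mem ((C true).algebraMap_mem _
        (mul_mem hd₁ hd₂)) hy₁) (mul_mem (mul_mem ((C true).algebraMap_mem _ hd₂) hy₁) hd₁'), ?_⟩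
    rw [e₁]
    simp only [map_mul]
    field_simp
    ring
  have k2 : Cl (C false) c ((e * a₁ + (1 - e) * a₂) / a₂) := by
    refine ⟨algebraMap k F d₁ * y₂ * (algebraMap k F d₂ * (a₁ / a₂)) -
      algebraMap k F (d₁ * d₂) * y₂, sub_mem (mul_mem (mul_mem ((C false).algebraMap_mem _ hd₁)
        hy₂) hd₂') (mul_mem ((C false).algebraMap_mem _ (mul_mem hd₁ hd₂)) hy₂), ?_⟩
    rw [e₂]
    simp only [map_mul]
    field_simp
    ring
  refine ⟨e * a₁ + (1 - e) * a₂, fun h0 => ?_, fun τ hτ => ?_, k1, k2⟩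
  · rw [h0, zero_div] at k1
    exact k1.ne_zero hcO hc0 rfl
  · rw [map_add, map_mul, map_mul, map_sub, map_one, D.σ_R τ e heR, h₁ τ hτ, h₂ τ hτ]

/-- **Almost rational representatives.** -/
theorem exists_almost [IsAlgClosed k] (hB : B.RankOne) {n : ℕ} (hn : 0 < n) {u g g' : F}
    (hu0 : u ≠ 0) (hg0 : g ≠ 0) (hg'0 : g' ≠ 0) (hu : ∀ τ ∈ Γ, σ τ u = u)
    (h : Φ u = u * g ^ n) (h' : Φ (w u) = w u * g' ^ n) {β : k} (hβ : β ∈ B.O)
    (hβ0 : β ≠ 0) (hβr : B.r β = 0) :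
    ∃ f : F, f ≠ 0 ∧ (∀ τ ∈ Γ, σ τ (f ^ n * u) = f ^ n * u) ∧
      ∀ τ i, ∃ c : k, c ≠ 0 ∧ Cl (C i) β (algebraMap k F c * (σ τ (f ^ n * u) / (f ^ n * u))) := by
  have hwu0 : w u ≠ 0 := by simpa using hu0
  have hwu : ∀ τ ∈ Γ, σ τ (w u) = w u := fun τ hτ => by rw [D.σ_w, hu τ hτ]
  obtain ⟨c₁, f₁, s₁, hc₁, hf₁, hs₁, hf₁Γ, hs₁T, hcl₁⟩ := D.approx_true hB hn hu0 hg0 hu h hβ hβ0
  obtain ⟨c₂, f₂, s₂, hc₂, hf₂, hs₂, hf₂Γ, hs₂T, hcl₂⟩ :=
    D.approx_true hB hn hwu0 hg'0 hwu h' hβ hβ0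
  have hcl₃ := D.cl_w hcl₂
  rw [map_div₀, map_mul, D.w_const, map_mul, D.w_w, map_pow] at hcl₃
  have hwf₂ : w f₂ ≠ 0 := by simpa using hf₂
  have hws₂ : w s₂ ≠ 0 := by simpa using hs₂
  have hws₂T : ∀ τ, σ τ (w s₂) = w s₂ := fun τ => by rw [D.σ_w, hs₂T]
  obtain ⟨f, hf0, hfΓ, k1, k2⟩ := D.exists_both (Γ := Γ) hB hβ hβ0 hβr hf₁ hwf₂ hf₁Γ
    (fun τ hτ => by rw [D.σ_w, hf₂Γ τ hτ])
  have hfu0 : f ^ n * u ≠ 0 := mul_ne_zero (pow_ne_zero _ hf0) hu0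
  have key : ∀ i, ∃ (c : k) (s : F), c ≠ 0 ∧ s ≠ 0 ∧ (∀ τ, σ τ s = s) ∧
      Cl (C i) β (algebraMap k F c * (f ^ n * u) / s) := by
    intro i
    cases i
    · refine ⟨c₂, w s₂, hc₂, hws₂, hws₂T, ?_⟩
      have e : algebraMap k F c₂ * (f ^ n * u) / w s₂ =
          (f / w f₂) ^ n * (algebraMap k F c₂ * (w f₂ ^ n * u) / w s₂) := by
        rw [div_pow]; field_simp
      rw [e]
      exact (k2.pow hβ n).mul hβ hcl₃
    · refine ⟨c₁, s₁, hc₁, hs₁, hs₁T, ?_⟩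
      have e : algebraMap k F c₁ * (f ^ n * u) / s₁ =
          (f / f₁) ^ n * (algebraMap k F c₁ * (f₁ ^ n * u) / s₁) := by
        rw [div_pow]; field_simp
      rw [e]
      exact (k1.pow hβ n).mul hβ hcl₁
  refine ⟨f, hf0, fun τ hτ => by rw [map_mul, map_pow, hfΓ τ hτ, hu τ hτ], fun τ i => ?_⟩
  obtain ⟨c, s, hc, hs, hsT, hcl⟩ := key i
  have h1 := cl_semi (D.σ_const τ) (D.σ_unit τ) (D.σ_mem τ i) hβ0 hcl
  have h2 := h1.div hβ hβr hcl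
  have hσc : σ₀ τ c ≠ 0 := by simpa using hc
  refine ⟨σ₀ τ c / c, div_ne_zero hσc hc, ?_⟩
  have hcF : algebraMap k F c ≠ 0 := by simpa using hc
  have e : algebraMap k F (σ₀ τ c / c) * (σ τ (f ^ n * u) / (f ^ n * u)) =
      σ τ (algebraMap k F c * (f ^ n * u) / s) / (algebraMap k F c * (f ^ n * u) / s) := by
    have hσu : σ τ (f ^ n * u) ≠ 0 := by simpa using hfu0
    have e5 : σ τ (algebraMap k F c * (f ^ n * u) / s) =
        algebraMap k F (σ₀ τ c) * σ τ (f ^ n * u) / s := by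
      rw [map_div₀ (σ τ), map_mul (σ τ) (algebraMap k F c), D.σ_const, hsT]
    rw [e5, map_div₀]
    generalize σ τ (f ^ n * u) = z
    field_simp
  rw [e]
  exact h2

end IterDat

end Fermat.Agent.AtS
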