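import Fermat.Agent.AtS.Pole

/-!
# The node lemma for deep congruences
-/

set_option autoImplicit false
set_option linter.unusedSectionVars false
set_option linter.style.haveILetI false

noncomputable section

namespace Fermat.Agent.AtS

open AlgebraicCurve Fermat.Agent.Curves Polynomial Fermat.Agent.Models

section Val

variable {k κ : Type*} [Field k] [Field κ] {B : Res k κ}

variable (B) in
/-- the maximum of three elements -/
theorem exists_max3 (a b c : k) : ∃ m : k, (m = a ∨ m = b ∨ m = c) ∧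
    ∀ x : k, (x = a ∨ x = b ∨ x = c) → x ≠ 0 → m ≠ 0 ∧ x / m ∈ B.O := by
  classical
  have key : ∀ x y : k, B.O.valuation x ≤ B.O.valuation y → x ≠ 0 → y ≠ 0 ∧ x / y ∈ B.O := by
    intro x y h hx
    have hy : y ≠ 0 := by
      rintro rfl
      rw [map_zero, le_zero_iff, Valuation.zero_iff] at h
      exact hx h
    refine ⟨hy, ?_⟩
    rw [← ValuationSubring.valuation_le_one_iff, map_div₀]
    exact div_le_one_of_le₀ h zero_le
  obtain ⟨m, hm, hmax⟩ := Finset.exists_max_image ({a, b, c} : Finset k)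
    (fun x => B.O.valuation x) ⟨a, by simp⟩
  exact ⟨m, by simpa using hm, fun x hx hx0 => key x m (hmax x (by simpa using hx)) hx0⟩

/-- a maximal element among three, or all are divisible by `α` -/
theorem all_dvd {α a b c : k} (hα : α ≠ 0)
    (key : ∀ β : k, β ≠ 0 → α / β ∈ B.O → B.r (α / β) = 0 → a / β ∈ B.O → b / β ∈ B.O →
      c / β ∈ B.O → B.r (a / β) = 0 ∧ B.r (b / β) = 0 ∧ B.r (c / β) = 0) :
    a / α ∈ B.O ∧ b / α ∈ B.O ∧ c / α ∈ B.O := by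
  obtain ⟨m, hm, hmax⟩ := exists_max3 B a b c
  have hmO : m / α ∈ B.O := by
    by_contra hne
    have hm0 : m ≠ 0 := by
      rintro rfl
      rw [zero_div] at hne
      exact hne (zero_mem _)
    have h1 := Res.inv_mem_of_notMem hne
    have h2 := Res.r_inv_of_notMem hne
    rw [inv_div] at h1 h2
    have hd : ∀ x : k, (x = a ∨ x = b ∨ x = c) → x / m ∈ B.O := by
      intro x hx
      rcases eq_or_ne x 0 with h0 | h0
      · rw [h0, zero_div]; exact zero_mem _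
      · exact (hmax x hx h0).2
    obtain ⟨h3, h4, h5⟩ := key m hm0 h1 h2 (hd a (Or.inl rfl)) (hd b (Or.inr (Or.inl rfl)))
      (hd c (Or.inr (Or.inr rfl)))
    have h6 : B.r (m / m) = 0 := by
      rcases hm with h | h | h
      · nth_rw 1 [h]; exact h3
      · nth_rw 1 [h]; exact h4
      · nth_rw 1 [h]; exact h5
    rw [div_self hm0, Res.r_one] at h6
    exact one_ne_zero h6
  have hd : ∀ x : k, (x = a ∨ x = b ∨ x = c) → x / α ∈ B.O := by
    intro x hx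
    rcases eq_or_ne x 0 with h0 | h0
    · rw [h0, zero_div]; exact zero_mem _
    · obtain ⟨h1, h2⟩ := hmax x hx h0
      have e : x / α = (x / m) * (m / α) := by field_simp
      rw [e]
      exact mul_mem h2 hmO
  exact ⟨hd a (Or.inl rfl), hd b (Or.inr (Or.inl rfl)), hd c (Or.inr (Or.inr rfl))⟩

end Val

variable {k κ : Type*} [Field k] [Field κ] {B : Res k κ} {F : Type*} [Field F] [Algebra k F]
  {ι : Type*} {𝓕 : ι → Type*} [∀ i, Field (𝓕 i)] [∀ i, Algebra κ (𝓕 i)]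
  {C : ∀ i, Comp B F (𝓕 i)}
  [IsAlgClosed k] [IsAlgClosed κ] [IsFunctionField k F] [∀ i, IsFunctionField κ (𝓕 i)]
  [Fintype ι] [DecidableEq ι] [Nonempty ι]

/-- scaling inside the valuation ring -/
theorem smul_r {i : ι} {c : k} (hc : c ∈ B.O) {x : F} (hx : x ∈ (C i).O) :
    algebraMap k F c * x ∈ (C i).O ∧
      (C i).r (algebraMap k F c * x) = algebraMap κ (𝓕 i) (B.r c) * (C i).r x := by
  refine ⟨mul_mem ((C i).algebraMap_mem c hc) hx, ?_⟩
  rw [Res.r_mul ((C i).algebraMap_mem c hc) hx, (C i).r_algebraMap c hc]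

/-- the sum of a regular element and an element with a pole has a pole -/
theorem pole_zero {E : Type*} [Field E] [Algebra κ E] [IsFunctionField κ E] {𝔭 : Place κ E}
    {a c : κ} {X Y : E} (hY : Y ∈ 𝔭.toValuationSubring) (hX : X = 0 ∨ (X ≠ 0 ∧ 𝔭.ord X < 0))
    (h : algebraMap κ E a * X + algebraMap κ E c = Y) (hX0 : X ≠ 0) : a = 0 := by
  by_contra ha
  have h1 : 𝔭.ord X < 0 := (hX.resolve_left hX0).2
  have haE : algebraMap κ E a ≠ 0 := by simpa using ha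
  have h2 : algebraMap κ E a * X ∈ 𝔭.toValuationSubring := by
    have : algebraMap κ E a * X = Y - algebraMap κ E c := by rw [← h]; ring
    rw [this]
    exact sub_mem hY (𝔭.algebraMap_mem' c)
  rw [mem_iff_ord 𝔭 (mul_ne_zero haE hX0), 𝔭.ord_mul haE hX0, ord_algebraMap] at h2
  omega

/-- **The node lemma.** -/
theorem node_lemma (hB : B.RankOne) (hC : Incomp C) {t : F} (ht : IsGood C t)
    (hS : Surj C t) {M : Ideal (chart C t)} {i₁ i₂ : ι} {𝔭₁ : Place κ (𝓕 i₁)}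
    {𝔭₂ : Place κ (𝓕 i₂)} (h₁ : 𝔭₁ ∈ spec t M i₁) (h₂ : 𝔭₂ ∈ spec t M i₂)
    (hbr : ∀ i, (spec t M i).Nonempty → i = i₁ ∨ i = i₂) {w₁ w₂ : F}
    (hw₁ : w₁ ∈ (C i₁).O) (ho₁ : 𝔭₁.ord ((C i₁).r w₁) < 0)
    (hw₂ : w₂ ∈ (C i₂).O) (ho₂ : 𝔭₂.ord ((C i₂).r w₂) < 0)
    {α : k} (hα : α ∈ B.O) (hα0 : α ≠ 0) (hαr : B.r α = 0) {W : F}
    (hW : ∀ P ∈ gen t M, W ∈ P.toValuationSubring) {G₁ G₂ : F} (hG₁ : PP B w₁ G₁)
    (hG₂ : PP B w₂ G₂) {c₂ : k} (hc₂ : B.r c₂ ≠ 0) (h : Cl (C i₁) α (W / G₁))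
    (h' : Cl (C i₂) α (W / (algebraMap k F c₂ * G₂))) :
    Cl (C i₁) α G₁ ∧ Cl (C i₂) α G₂ ∧ ClB B α c₂ := by
  have hM := isPoint_of_spec hB hC ht ⟨𝔭₁, h₁⟩
  have hαF : algebraMap k F α ≠ 0 := by simpa using hα0
  obtain ⟨β₁, hβ₁, hβ₁r, X₁, hX₁, hGX₁, hd₁⟩ := hG₁.exists_depth hw₁ ho₁
  obtain ⟨β₂, hβ₂, hβ₂r, X₂, hX₂, hGX₂, hd₂⟩ := hG₂.exists_depth hw₂ ho₂
  have hG₁r := hG₁.r hw₁
  have hG₂r := hG₂.r hw₂
  have hG₁0 : G₁ ≠ 0 := Res.ne_zero_of_r (C := (C i₁).toRes) (by rw [hG₁r]; exact one_ne_zero)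
  have hG₂0 : G₂ ≠ 0 := Res.ne_zero_of_r (C := (C i₂).toRes) (by rw [hG₂r]; exact one_ne_zero)
  have hG₁O : G₁ ∈ (C i₁).O := Res.mem_of_r_ne_zero (by rw [hG₁r]; exact one_ne_zero)
  have hG₂O : G₂ ∈ (C i₂).O := Res.mem_of_r_ne_zero (by rw [hG₂r]; exact one_ne_zero)
  have hc₂O := Res.mem_of_r_ne_zero hc₂
  have hc₂0 : c₂ ≠ 0 := Res.ne_zero_of_r hc₂
  have hc₂F : algebraMap k F c₂ ≠ 0 := by simpa using hc₂0
  have hc₂m := (C i₂).algebraMap_mem c₂ hc₂O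
  obtain ⟨x₁, hx₁, hWx₁⟩ := h
  obtain ⟨x₂, hx₂, hWx₂⟩ := h'
  rw [div_eq_iff hG₁0] at hWx₁
  rw [div_eq_iff (mul_ne_zero hc₂F hG₂0)] at hWx₂
  have key : ∀ β : k, β ≠ 0 → α / β ∈ B.O → B.r (α / β) = 0 → β₁ / β ∈ B.O → β₂ / β ∈ B.O →
      (c₂ - 1) / β ∈ B.O → B.r (β₁ / β) = 0 ∧ B.r (β₂ / β) = 0 ∧ B.r ((c₂ - 1) / β) = 0 := by
    intro β hβ0 hαβ hαβr h1 h2 h3
    have hβF : algebraMap k F β ≠ 0 := by simpa using hβ0
    set Z := (W - 1) / algebraMap k F β with hZ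
    -- first branch
    have e1 : Z = algebraMap k F (β₁ / β) * X₁ + algebraMap k F (α / β) * (x₁ * G₁) := by
      rw [hZ, hWx₁, map_div₀, map_div₀]
      field_simp
      rw [hGX₁]
      ring
    obtain ⟨a1, a2⟩ := smul_r (C := C) (i := i₁) h1 hX₁
    obtain ⟨a3, a4⟩ := smul_r (C := C) (i := i₁) hαβ (mul_mem hx₁ hG₁O)
    have hZ1 : Z ∈ (C i₁).O := by rw [e1]; exact add_mem a1 a3
    have hZr1 : (C i₁).r Z = algebraMap κ _ (B.r (β₁ / β)) * (C i₁).r X₁ := by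
      rw [e1, Res.r_add a1 a3, a2, a4, hαβr, map_zero, zero_mul, add_zero]
    -- second branch
    have e2 : Z = algebraMap k F (β₂ / β) * (algebraMap k F c₂ * X₂) +
        algebraMap k F ((c₂ - 1) / β) +
        algebraMap k F (α / β) * (x₂ * (algebraMap k F c₂ * G₂)) := by
      rw [hZ, hWx₂, map_div₀, map_div₀, map_div₀, map_sub, map_one]
      field_simp
      rw [hGX₂]
      ring
    obtain ⟨b1, b2⟩ := smul_r (C := C) (i := i₂) h2 (mul_mem hc₂m hX₂)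
    obtain ⟨b3, b4⟩ := smul_r (C := C) (i := i₂) hαβ (mul_mem hx₂ (mul_mem hc₂m hG₂O))
    have b5 := (C i₂).algebraMap_mem _ h3
    have hZ2 : Z ∈ (C i₂).O := by rw [e2]; exact add_mem (add_mem b1 b5) b3
    have hZr2 : (C i₂).r Z = algebraMap κ _ (B.r (β₂ / β) * B.r c₂) * (C i₂).r X₂ +
        algebraMap κ _ (B.r ((c₂ - 1) / β)) := by
      rw [e2, Res.r_add (add_mem b1 b5) b3, Res.r_add b1 b5, b2, b4, hαβr, map_zero, zero_mul,
        add_zero, Res.r_mul hc₂m hX₂, (C i₂).r_algebraMap c₂ hc₂O, (C i₂).r_algebraMap _ h3,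
        map_mul]
      ring
    -- regularity
    have hloc : Z ∈ loc t M hM.isMaximal.isPrime := mem_loc_of hB hC ht hS hM (fun P hP => by
      rw [hZ, div_eq_mul_inv, ← map_inv₀]
      exact mul_mem (sub_mem (hW P hP) (one_mem _)) (P.algebraMap_mem' _)) fun i hi => by
        rcases hbr i hi with rfl | rfl
        · exact hZ1
        · exact hZ2
    obtain ⟨-, c1⟩ := loc_mem_O hB hC ht hM.isMaximal.isPrime h₁ hloc
    obtain ⟨-, c2⟩ := loc_mem_O hB hC ht hM.isMaximal.isPrime h₂ hloc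
    have c3 := loc_value_eq hB hC ht hM.isMaximal.isPrime h₁ h₂ hloc
    have r1 : B.r (β₁ / β) = 0 := by
      rcases hd₁ with h0 | h0
      · rw [h0, zero_div, Res.r_zero]
      · exact pole_zero c1 (Or.inr h0) (a := B.r (β₁ / β)) (c := 0)
          (by rw [hZr1, map_zero, add_zero]) h0.1
    have r2 : B.r (β₂ / β) = 0 := by
      rcases hd₂ with h0 | h0
      · rw [h0, zero_div, Res.r_zero]
      · have := pole_zero c2 (Or.inr h0) (a := B.r (β₂ / β) * B.r c₂)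
          (c := B.r ((c₂ - 1) / β)) hZr2.symm h0.1
        exact (mul_eq_zero.mp this).resolve_right hc₂
    refine ⟨r1, r2, ?_⟩
    rw [hZr1, hZr2, r1, r2, zero_mul, map_zero, map_zero, zero_mul, zero_mul, zero_add,
      value_algebraMap, DUnit.value_zero] at c3
    exact c3.symm
  obtain ⟨k1, k2, k3⟩ := all_dvd hα0 key
  refine ⟨⟨algebraMap k F (β₁ / α) * X₁, mul_mem ((C i₁).algebraMap_mem _ k1) hX₁, ?_⟩,
    ⟨algebraMap k F (β₂ / α) * X₂, mul_mem ((C i₂).algebraMap_mem _ k2) hX₂, ?_⟩,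
    ⟨(c₂ - 1) / α, k3, by field_simp; ring⟩⟩
  · rw [hGX₁, map_div₀]; field_simp
  · rw [hGX₂, map_div₀]; field_simp

end Fermat.Agent.AtS
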