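import Fermat.Agent.AtS.Gen
import Fermat.Agent.Models.RamSlope

/-!
# Comparison of two nodes for functions which are almost rational on both components
-/

set_option autoImplicit false
set_option linter.unusedSectionVars false
set_option linter.style.haveILetI false

noncomputable section

namespace Fermat.Agent.AtS

open AlgebraicCurve Fermat.Agent.Curves Polynomial Fermat.Agent.Models Fermat.Agent.Mono

variable {k κ : Type*} [Field k] [Field κ] {B : Res k κ} {F : Type*} [Field F] [Algebra k F]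
  {ι : Type*} {𝓕 : ι → Type*} [∀ i, Field (𝓕 i)] [∀ i, Algebra κ (𝓕 i)]
  {C : ∀ i, Comp B F (𝓕 i)}
  [IsAlgClosed k] [IsAlgClosed κ] [IsFunctionField k F] [∀ i, IsFunctionField κ (𝓕 i)]
  [Fintype ι] [DecidableEq ι] [Nonempty ι]

variable {t : F} {M M' : Ideal (chart C t)} {i₁ i₂ : ι}
  {𝔭₁ 𝔭₁' : Place κ (𝓕 i₁)} {𝔭₂ 𝔭₂' : Place κ (𝓕 i₂)}

section One

variable (hB : B.RankOne) (hBc : B.Commens) (hC : Incomp C) (ht : IsGood C t)
    (hS : Surj C t) {Y : F} {ϖ : k} (h : IsNode C t M i₁ i₂ 𝔭₁ 𝔭₂ Y ϖ)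

include hB hBc hC ht hS h

/-- the scale of the residue on the second component -/
theorem slope_scale {n : ℕ} {D : Divisor k F} {u : F} (hu0 : u ≠ 0)
    (hu : ∀ P ∈ gen t M, P.ord u = n * D P) {c : k} (hc : (C i₁).r (algebraMap k F c * u) ≠ 0) :
    (C i₂).r (algebraMap k F (c / (RN t M Y D ^ n * ϖ ^ (-so (C i₂) 𝔭₂ u))) * u) ≠ 0 := by
  have hR0 := RN_ne_zero hB hBc hC ht hS h D
  have hRF : algebraMap k F (RN t M Y D) ≠ 0 := by simpa using hR0
  exact (slope_node hB hBc hC ht hS h hu0 hu hc (g := gN t M Y D) (a := RN t M Y D) hR0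
    (fun P hP => gN_ord hB hBc hC ht hS h D hP)
    (by
      rw [gN_eq₁ hB hBc hC ht hS h]
      refine Res.r_mul_ne_zero ?_ ?_
      · rw [Res.r_zpow h.r₁]; exact zpow_ne_zero _ h.r₁
      · rw [(G1_pp hB hBc hC ht hS h D).r (Y_inv hB hBc hC ht hS h).1]; exact one_ne_zero)
    (by
      rw [gN_eq₂ hB hBc hC ht hS h, mul_div_cancel_left₀ _ hRF,
        (G2_pp hB hBc hC ht hS h D).r (Y_div hB hBc hC ht hS h).1]
      exact one_ne_zero)
    (by
      rw [gN_eq₂ hB hBc hC ht hS h, mul_div_cancel_left₀ _ hRF,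
        (G2_pp hB hBc hC ht hS h D).r (Y_div hB hBc hC ht hS h).1]
      simp)).2

/-- the scale of the divisor of a function which is almost rational -/
theorem scale_val {n : ℕ} {D : Divisor k F} {u : F} (hu0 : u ≠ 0)
    (hu : ∀ P : Place k F, P.ord u = n * D P)
    {σ : F ≃+* F} {σ₀ : k ≃+* k} {s : Place k F ≃ Place k F}
    (hi : Inertial C σ σ₀ s) (hi' : Inertial C σ.symm σ₀.symm s.symm) (hσt : σ t = t)
    (hσY : σ Y = Y)
    {α : k} (hα : α ∈ B.O) (hα0 : α ≠ 0) (hαr : B.r α = 0)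
    {c₁ c₂ : k} (hc₁ : c₁ ≠ 0) (hc₂ : c₂ ≠ 0) (h1 : Cl (C i₁) α (algebraMap k F c₁ * (σ u / u)))
    (h2 : Cl (C i₂) α (algebraMap k F c₂ * (σ u / u))) :
    ClB B α (c₁ / (c₂ * (σ₀ (RN t M Y D) / RN t M Y D) ^ n)) := by
  have hσu0 : σ u ≠ 0 := by simpa using hu0
  have h3 := node_val hB hBc hC ht hS h hα hα0 hαr hc₁ hc₂ h1 h2
    (E := n • (Finsupp.mapDomain s D - D)) (fun P _ => by
      have hmap : Finsupp.mapDomain s D P = D (s.symm P) := by
        conv_lhs => rw [← s.apply_symm_apply P]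
        rw [Finsupp.mapDomain_apply s.injective]
      have h4 : P.ord (σ u) = (s.symm P).ord u := by
        have := hi.ord (s.symm P) u
        rwa [s.apply_symm_apply] at this
      rw [div_eq_mul_inv, P.ord_mul hσu0 (inv_ne_zero hu0), P.ord_inv, h4, hu, hu,
        Finsupp.smul_apply, Finsupp.sub_apply, hmap, nsmul_eq_mul]
      ring)
  rwa [RN_nsmul hB hBc hC ht hS h, RN_sub hB hBc hC ht hS h,
    RN_map hB hBc hC ht hS h hi hi' hσt hσY] at h3

/-- the scale is rational if the function is -/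
theorem scale_fixed {n : ℕ} (hn : n ≠ 0) {D : Divisor k F} {u : F}
    (hu : ∀ P : Place k F, P.ord u = n * D P)
    {σ : F ≃+* F} {σ₀ : k ≃+* k} {s : Place k F ≃ Place k F}
    (hi : Inertial C σ σ₀ s) (hi' : Inertial C σ.symm σ₀.symm s.symm) (hσt : σ t = t)
    (hσY : σ Y = Y) (hσu : σ u = u) :
    σ₀ (RN t M Y D) = RN t M Y D := by
  rw [← RN_map hB hBc hC ht hS h hi hi' hσt hσY]
  congr 1
  ext P
  have hmap : Finsupp.mapDomain s D P = D (s.symm P) := by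
    conv_lhs => rw [← s.apply_symm_apply P]
    rw [Finsupp.mapDomain_apply s.injective]
  have h4 : P.ord (σ u) = (s.symm P).ord u := by
    have := hi.ord (s.symm P) u
    rwa [s.apply_symm_apply] at this
  rw [hσu, hu, hu] at h4
  have hnZ : (n : ℤ) ≠ 0 := by exact_mod_cast hn
  rw [hmap]
  exact (mul_left_cancel₀ hnZ h4).symm

end One

/-- **Comparison of two nodes.** -/
theorem pair (hB : B.RankOne) (hBc : B.Commens) (hC : Incomp C) (ht : IsGood C t)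
    (hS : Surj C t) {Y Y' : F} {ϖ ϖ' : k} (h : IsNode C t M i₁ i₂ 𝔭₁ 𝔭₂ Y ϖ)
    (h' : IsNode C t M' i₁ i₂ 𝔭₁' 𝔭₂' Y' ϖ') {n : ℕ} (hn : n ≠ 0) {u : F} (hu0 : u ≠ 0)
    (hu : ∀ P : Place k F, (n : ℤ) ∣ P.ord u) {α : k} (hα : α ∈ B.O) (hα0 : α ≠ 0)
    (hαr : B.r α = 0) :
    ∃ b : k, b ≠ 0 ∧
      (∀ (σ : F ≃+* F) (σ₀ : k ≃+* k) (s : Place k F ≃ Place k F), Inertial C σ σ₀ s →
        Inertial C σ.symm σ₀.symm s.symm → σ t = t → σ Y = Y → σ Y' = Y' →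
        (∀ i, ∃ c : k, c ≠ 0 ∧ Cl (C i) α (algebraMap k F c * (σ u / u))) →
        ClB B α ((σ₀ b / b) ^ n)) ∧
      (∀ (σ : F ≃+* F) (σ₀ : k ≃+* k) (s : Place k F ≃ Place k F), Inertial C σ σ₀ s →
        Inertial C σ.symm σ₀.symm s.symm → σ t = t → σ Y = Y → σ Y' = Y' → σ u = u →
        σ₀ b = b) ∧
      B.r (b ^ n * ϖ ^ (-so (C i₂) 𝔭₂ u) / ϖ' ^ (-so (C i₂) 𝔭₂' u)) ≠ 0 := by
  obtain ⟨D, hD⟩ := exists_div hn hu
  have hR0 := RN_ne_zero hB hBc hC ht hS h D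
  have hR0' := RN_ne_zero hB hBc hC ht hS h' D
  refine ⟨RN t M Y D / RN t M' Y' D, div_ne_zero hR0 hR0', ?_, ?_, ?_⟩
  · intro σ σ₀ s hi hi' hσt hσY hσY' hc
    obtain ⟨c₁, hc₁, h1⟩ := hc i₁
    obtain ⟨c₂, hc₂, h2⟩ := hc i₂
    have e1 := scale_val hB hBc hC ht hS h hu0 hD hi hi' hσt hσY hα hα0 hαr hc₁ hc₂ h1 h2
    have e2 := scale_val hB hBc hC ht hS h' hu0 hD hi hi' hσt hσY' hα hα0 hαr hc₁ hc₂ h1 h2
    have e3 := e2.mul hα (e1.inv hα hαr)
    convert e3 using 1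
    have h3 : σ₀ (RN t M Y D) ≠ 0 := by simpa using hR0
    have h4 : σ₀ (RN t M' Y' D) ≠ 0 := by simpa using hR0'
    rw [map_div₀, div_pow, div_pow, div_pow, div_pow, div_pow]
    field_simp
  · intro σ σ₀ s hi hi' hσt hσY hσY' hσu
    rw [map_div₀, scale_fixed hB hBc hC ht hS h hn hD hi hi' hσt hσY hσu,
      scale_fixed hB hBc hC ht hS h' hn hD hi hi' hσt hσY' hσu]
  · obtain ⟨c, hc0, hc⟩ := (C i₁).exists_scale u hu0
    have hs := slope_scale hB hBc hC ht hS h hu0 (fun P _ => hD P) hc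
    have hs' := slope_scale hB hBc hC ht hS h' hu0 (fun P _ => hD P) hc
    have h1 := scale_unit (C i₂) hs' hs
    have hinv := Res.r_inv_ne_zero h1
    convert hinv using 2
    have h2 : ϖ ^ (-so (C i₂) 𝔭₂ u) ≠ 0 := zpow_ne_zero _ h.ϖ_ne
    have h3 : ϖ' ^ (-so (C i₂) 𝔭₂' u) ≠ 0 := zpow_ne_zero _ h'.ϖ_ne
    rw [div_pow]
    field_simp

end Fermat.Agent.AtS
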