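import Fermat.Agent.Mono.Node

/-!
# Deep congruences, pole parts
-/

set_option autoImplicit false
set_option linter.unusedSectionVars false
set_option linter.style.haveILetI false

noncomputable section

namespace Fermat.Agent.AtS

open AlgebraicCurve Fermat.Agent.Curves Polynomial Fermat.Agent.Models

section Cl

variable {k κ : Type*} [Field k] [Field κ] {B : Res k κ}

/-- `c ≡ 1` modulo `α` in the base -/
def ClB (B : Res k κ) (α c : k) : Prop := ∃ b ∈ B.O, c = 1 + α * b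

variable {F 𝓕 : Type*} [Field F] [Field 𝓕] [Algebra k F] [Algebra κ 𝓕]

/-- `f ≡ 1` modulo `α` -/
def Cl (C : Comp B F 𝓕) (α : k) (f : F) : Prop := ∃ x ∈ C.O, f = 1 + algebraMap k F α * x

variable {C : Comp B F 𝓕} {α β : k} {f g : F}

theorem ClB.mem {c : k} (hα : α ∈ B.O) (h : ClB B α c) : c ∈ B.O := by
  obtain ⟨b, hb, rfl⟩ := h
  exact add_mem (one_mem _) (mul_mem hα hb)

theorem ClB.r {c : k} (hα : α ∈ B.O) (h0 : B.r α = 0) (h : ClB B α c) : B.r c = 1 := by
  obtain ⟨b, hb, rfl⟩ := h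
  rw [Res.r_add (one_mem _) (mul_mem hα hb), Res.r_mul hα hb, h0, zero_mul, add_zero, Res.r_one]

theorem ClB.one : ClB B α 1 := ⟨0, zero_mem _, by simp⟩

theorem ClB.mul {c d : k} (hα : α ∈ B.O) (hc : ClB B α c) (hd : ClB B α d) : ClB B α (c * d) := by
  obtain ⟨b, hb, rfl⟩ := hc
  obtain ⟨b', hb', rfl⟩ := hd
  exact ⟨b + b' + α * (b * b'), add_mem (add_mem hb hb') (mul_mem hα (mul_mem hb hb')), by ring⟩

theorem ClB.inv {c : k} (hα : α ∈ B.O) (h0 : B.r α = 0) (hc : ClB B α c) : ClB B α c⁻¹ := by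
  have h1 := hc.r hα h0
  have h2 : B.r c ≠ 0 := by rw [h1]; exact one_ne_zero
  have h3 := Res.inv_mem_of_r h2
  have h4 := Res.ne_zero_of_r h2
  obtain ⟨b, hb, hcb⟩ := hc
  refine ⟨-(c⁻¹ * b), neg_mem (mul_mem h3 hb), ?_⟩
  field_simp
  rw [hcb]; ring

theorem ClB.pow {c : k} (hα : α ∈ B.O) (hc : ClB B α c) (n : ℕ) : ClB B α (c ^ n) := by
  induction n with
  | zero => rw [pow_zero]; exact ClB.one
  | succ n ih => rw [pow_succ]; exact ih.mul hα hc

theorem ClB.mono {c : k} (hc : ClB B α c) {γ : k} (hγ : γ ∈ B.O) (h : α = β * γ) :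
    ClB B β c := by
  obtain ⟨b, hb, rfl⟩ := hc
  exact ⟨γ * b, mul_mem hγ hb, by rw [h]; ring⟩

theorem Cl.mem (hα : α ∈ B.O) (h : Cl C α f) : f ∈ C.O := by
  obtain ⟨x, hx, rfl⟩ := h
  exact add_mem (one_mem _) (mul_mem (C.algebraMap_mem α hα) hx)

theorem Cl.r (hα : α ∈ B.O) (h0 : B.r α = 0) (h : Cl C α f) : C.r f = 1 := by
  obtain ⟨x, hx, rfl⟩ := h
  have h1 := C.algebraMap_mem α hα
  rw [Res.r_add (one_mem _) (mul_mem h1 hx), Res.r_mul h1 hx, C.r_algebraMap_eq_zero hα h0,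
    zero_mul, add_zero, Res.r_one]

theorem Cl.r_ne (hα : α ∈ B.O) (h0 : B.r α = 0) (h : Cl C α f) : C.r f ≠ 0 := by
  rw [h.r hα h0]; exact one_ne_zero

theorem Cl.ne_zero (hα : α ∈ B.O) (h0 : B.r α = 0) (h : Cl C α f) : f ≠ 0 :=
  Res.ne_zero_of_r (h.r_ne hα h0)

theorem Cl.one : Cl C α (1 : F) := ⟨0, zero_mem _, by simp⟩

theorem Cl.mul (hα : α ∈ B.O) (hf : Cl C α f) (hg : Cl C α g) : Cl C α (f * g) := by
  obtain ⟨x, hx, rfl⟩ := hf
  obtain ⟨y, hy, rfl⟩ := hg
  exact ⟨x + y + algebraMap k F α * (x * y),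
    add_mem (add_mem hx hy) (mul_mem (C.algebraMap_mem α hα) (mul_mem hx hy)), by ring⟩

theorem Cl.inv (hα : α ∈ B.O) (h0 : B.r α = 0) (hf : Cl C α f) : Cl C α f⁻¹ := by
  have h2 := hf.r_ne hα h0
  have h3 := Res.inv_mem_of_r h2
  have h4 := Res.ne_zero_of_r h2
  obtain ⟨b, hb, hcb⟩ := hf
  refine ⟨-(f⁻¹ * b), neg_mem (mul_mem h3 hb), ?_⟩
  field_simp
  rw [hcb]; ring

theorem Cl.div (hα : α ∈ B.O) (h0 : B.r α = 0) (hf : Cl C α f) (hg : Cl C α g) :
    Cl C α (f / g) := by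
  rw [div_eq_mul_inv]; exact hf.mul hα (hg.inv hα h0)

theorem Cl.pow (hα : α ∈ B.O) (hf : Cl C α f) (n : ℕ) : Cl C α (f ^ n) := by
  induction n with
  | zero => rw [pow_zero]; exact Cl.one
  | succ n ih => rw [pow_succ]; exact ih.mul hα hf

theorem Cl.prod {ι : Type*} (s : Finset ι) (f : ι → F) (hα : α ∈ B.O)
    (hf : ∀ i ∈ s, Cl C α (f i)) : Cl C α (∏ i ∈ s, f i) := by
  classical
  induction s using Finset.induction_on with
  | empty => rw [Finset.prod_empty]; exact Cl.one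
  | insert a s ha ih =>
    rw [Finset.prod_insert ha]
    exact (hf a (Finset.mem_insert_self _ _)).mul hα
      (ih fun i hi => hf i (Finset.mem_insert_of_mem hi))

theorem Cl.mono (hf : Cl C α f) {γ : k} (hγ : γ ∈ B.O) (h : α = β * γ) : Cl C β f := by
  obtain ⟨x, hx, rfl⟩ := hf
  exact ⟨algebraMap k F γ * x, mul_mem (C.algebraMap_mem _ hγ) hx, by rw [h, map_mul]; ring⟩

theorem cl_algebraMap (hα : α ≠ 0) {c : k} : Cl C α (algebraMap k F c) ↔ ClB B α c := by
  have hαF : algebraMap k F α ≠ 0 := by simpa using hα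
  constructor
  · rintro ⟨x, hx, h⟩
    refine ⟨(c - 1) / α, ?_, by field_simp; ring⟩
    rw [← C.algebraMap_mem_iff, map_div₀, map_sub, h, map_one]
    convert hx using 1
    field_simp
    ring
  · rintro ⟨b, hb, rfl⟩
    exact ⟨algebraMap k F b, C.algebraMap_mem b hb, by rw [map_add, map_mul, map_one]⟩

end Cl

section Ord

variable {κ E : Type*} [Field κ] [Field E] [Algebra κ E]

theorem ord_aeval_neg [IsAlgClosed κ] [IsFunctionField κ E] (v : Place κ E) {w : E}
    (hw : v.ord w < 0) {R : κ[X]} (hR : R ≠ 0) :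
    aeval w R ≠ 0 ∧ v.ord (aeval w R) = R.natDegree * v.ord w := by
  have hw0 : w ≠ 0 := by
    rintro rfl
    simp at hw
  induction hd : R.natDegree using Nat.strong_induction_on generalizing R with
  | _ d ih =>
    have hlead : v.ord (aeval w (C R.leadingCoeff * X ^ R.natDegree)) = R.natDegree * v.ord w := by
      have h1 : algebraMap κ E R.leadingCoeff ≠ 0 := by
        simpa using Polynomial.leadingCoeff_ne_zero.mpr hR
      rw [map_mul, aeval_C, map_pow, aeval_X, v.ord_mul h1 (pow_ne_zero _ hw0), ord_algebraMap,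
        ord_pow, zero_add]
    have hlead0 : aeval w (C R.leadingCoeff * X ^ R.natDegree) ≠ 0 := by
      rw [map_mul, aeval_C, map_pow, aeval_X]
      exact mul_ne_zero (by simpa using Polynomial.leadingCoeff_ne_zero.mpr hR) (pow_ne_zero _ hw0)
    have e : aeval w R = aeval w (C R.leadingCoeff * X ^ R.natDegree) + aeval w R.eraseLead := by
      rw [← map_add, add_comm, Polynomial.eraseLead_add_C_mul_X_pow]
    rw [e]
    have h2 := ord_add_eq_left v hlead0 (g := aeval w R.eraseLead) (by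
      rcases eq_or_ne R.eraseLead 0 with h0 | h0
      · left; rw [h0, map_zero]
      · right
        have h3 := (Polynomial.eraseLead_natDegree_lt_or_eraseLead_eq_zero R).resolve_right h0
        obtain ⟨-, h4⟩ := ih _ (by omega) h0 rfl
        rw [h4, hlead]
        have h5 : (R.eraseLead.natDegree : ℤ) < R.natDegree := by exact_mod_cast h3
        nlinarith)
    rw [← hd, ← hlead]
    exact h2

end Ord

section PP

variable {k κ : Type*} [Field k] [Field κ] {B : Res k κ}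
variable {F 𝓕 : Type*} [Field F] [Field 𝓕] [Algebra k F] [Algebra κ 𝓕]

/-- Rational functions in `w` of the form `1 + (small) w + …` divided by the same. -/
def PP (B : Res k κ) (w G : F) : Prop := ∃ P Q : (B.O)[X], P.map B.res = 1 ∧ Q.map B.res = 1 ∧
  P.coeff 0 = 1 ∧ Q.coeff 0 = 1 ∧ aeval w (P.map B.O.subtype) ≠ 0 ∧
  aeval w (Q.map B.O.subtype) ≠ 0 ∧ G = aeval w (P.map B.O.subtype) / aeval w (Q.map B.O.subtype)

variable {C : Comp B F 𝓕} {w G G' : F}

theorem PP.one : PP B w (1 : F) :=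
  ⟨1, 1, by simp, by simp, by simp, by simp, by simp, by simp, by simp⟩

theorem PP.mul (h : PP B w G) (h' : PP B w G') : PP B w (G * G') := by
  obtain ⟨P, Q, h1, h2, h3, h4, h5, h6, rfl⟩ := h
  obtain ⟨P', Q', h1', h2', h3', h4', h5', h6', rfl⟩ := h'
  refine ⟨P * P', Q * Q', by rw [Polynomial.map_mul, h1, h1', mul_one],
    by rw [Polynomial.map_mul, h2, h2', mul_one], by rw [Polynomial.mul_coeff_zero, h3, h3', mul_one],
    by rw [Polynomial.mul_coeff_zero, h4, h4', mul_one], ?_, ?_, ?_⟩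
  · rw [Polynomial.map_mul, map_mul]; exact mul_ne_zero h5 h5'
  · rw [Polynomial.map_mul, map_mul]; exact mul_ne_zero h6 h6'
  · rw [Polynomial.map_mul, Polynomial.map_mul, map_mul, map_mul, div_mul_div_comm]

theorem PP.inv (h : PP B w G) : PP B w G⁻¹ := by
  obtain ⟨P, Q, h1, h2, h3, h4, h5, h6, rfl⟩ := h
  exact ⟨Q, P, h2, h1, h4, h3, h6, h5, inv_div _ _⟩

theorem PP.pow (h : PP B w G) (n : ℕ) : PP B w (G ^ n) := by
  induction n with
  | zero => rw [pow_zero]; exact PP.one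
  | succ n ih => rw [pow_succ]; exact ih.mul h

theorem PP.zpow (h : PP B w G) (n : ℤ) : PP B w (G ^ n) := by
  obtain ⟨m, rfl | rfl⟩ := n.eq_nat_or_neg
  · rw [zpow_natCast]; exact h.pow m
  · rw [zpow_neg, zpow_natCast]; exact (h.pow m).inv

theorem PP.div (h : PP B w G) (h' : PP B w G') : PP B w (G / G') := by
  rw [div_eq_mul_inv]; exact h.mul h'.inv

theorem PP.prod {ι : Type*} (s : Finset ι) (f : ι → F) (hf : ∀ i ∈ s, PP B w (f i)) :
    PP B w (∏ i ∈ s, f i) := by
  classical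
  induction s using Finset.induction_on with
  | empty => rw [Finset.prod_empty]; exact PP.one
  | insert a s ha ih =>
    rw [Finset.prod_insert ha]
    exact (hf a (Finset.mem_insert_self _ _)).mul (ih fun i hi => hf i (Finset.mem_insert_of_mem hi))

/-- the basic example -/
theorem PP.sub {c : k} (hc : c ∈ B.O) (hc0 : B.r c = 0) (hw : w ∈ C.O) :
    PP B w (1 - algebraMap k F c * w) := by
  have hres : B.res ⟨c, hc⟩ = 0 := by rw [← Res.r_of_mem hc]; exact hc0
  have e : aeval w ((1 - Polynomial.C (⟨c, hc⟩ : B.O) * X).map B.O.subtype) =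
      1 - algebraMap k F c * w := by
    simp
  refine ⟨1 - Polynomial.C ⟨c, hc⟩ * X, 1, ?_, by simp, by simp, by simp, ?_, by simp, ?_⟩
  · rw [Polynomial.map_sub, Polynomial.map_mul, Polynomial.map_C, hres]; simp
  · rw [e]
    refine Res.ne_zero_of_r (C := C.toRes) ?_
    have h1 := C.algebraMap_mem c hc
    rw [Res.r_sub (one_mem _) (mul_mem h1 hw), Res.r_mul h1 hw, C.r_algebraMap_eq_zero hc hc0,
      zero_mul, sub_zero, Res.r_one]
    exact one_ne_zero
  · rw [e]; simp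

/-- residues of pole parts -/
theorem PP.r (h : PP B w G) (hw : w ∈ C.O) : C.r G = 1 := by
  obtain ⟨P, Q, h1, h2, h3, h4, h5, h6, rfl⟩ := h
  have hP := C.aeval_mem hw P
  have hQ := C.aeval_mem hw Q
  rw [h1, map_one] at hP
  rw [h2, map_one] at hQ
  rw [Res.r_div hP.1 (by rw [hQ.2]; exact one_ne_zero), hP.2, hQ.2, div_one]

/-- **Dichotomy** for pole parts. -/
theorem PP.exists_depth [IsAlgClosed κ] [IsFunctionField κ 𝓕] (h : PP B w G) (hw : w ∈ C.O)
    {𝔭 : Place κ 𝓕} (h𝔭 : 𝔭.ord (C.r w) < 0) :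
    ∃ β ∈ B.O, B.r β = 0 ∧ ∃ X ∈ C.O, G = 1 + algebraMap k F β * X ∧
      (β = 0 ∨ (C.r X ≠ 0 ∧ 𝔭.ord (C.r X) < 0)) := by
  obtain ⟨P, Q, h1, h2, h3, h4, h5, h6, rfl⟩ := h
  have hQ := C.aeval_mem hw Q
  rw [h2, map_one] at hQ
  have hQr : C.r (aeval w (Q.map B.O.subtype)) ≠ 0 := by rw [hQ.2]; exact one_ne_zero
  have hPQ : (P - Q).map B.res = 0 := by rw [Polynomial.map_sub, h1, h2, sub_self]
  by_cases hne : (P - Q).map B.O.subtype = 0
  · refine ⟨0, zero_mem _, Res.r_zero, 0, zero_mem _, ?_, Or.inl rfl⟩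
    rw [Polynomial.map_sub, sub_eq_zero] at hne
    rw [hne, div_self h6]; simp
  obtain ⟨c, hc, R, hR, hR0⟩ := exists_primitive (B := B) hne
  have hcF : algebraMap k F c ≠ 0 := by simpa using hc
  -- `c` is not integral
  have hcO : c ∉ B.O := by
    intro hcO
    apply hR0
    have : R = Polynomial.C ⟨c, hcO⟩ * (P - Q) := by
      apply Polynomial.map_injective B.O.subtype Subtype.val_injective
      rw [hR, Polynomial.map_mul, Polynomial.map_C]
      rfl
    rw [this, Polynomial.map_mul, hPQ, mul_zero]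
  have hR00 : R.coeff 0 = 0 := by
    have h7 := congrArg (fun p => p.coeff 0) hR
    simp only [Polynomial.coeff_map, Polynomial.coeff_C_mul] at h7
    rw [Polynomial.coeff_sub, h3, h4, sub_self, map_zero, mul_zero] at h7
    exact Subtype.ext h7
  have hRm := C.aeval_mem hw R
  refine ⟨c⁻¹, Res.inv_mem_of_notMem hcO, Res.r_inv_of_notMem hcO,
    aeval w (R.map B.O.subtype) / aeval w (Q.map B.O.subtype), ?_, ?_, Or.inr ?_⟩
  · rw [div_eq_mul_inv]; exact mul_mem hRm.1 (Res.inv_mem_of_r hQr)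
  · have e : aeval w (R.map B.O.subtype) = algebraMap k F c *
        (aeval w (P.map B.O.subtype) - aeval w (Q.map B.O.subtype)) := by
      rw [hR, map_mul, aeval_C, Polynomial.map_sub, map_sub]
    rw [e, map_inv₀]
    field_simp
    ring
  · rw [Res.r_div hRm.1 hQr, hRm.2, hQ.2, div_one]
    obtain ⟨h8, h9⟩ := ord_aeval_neg 𝔭 h𝔭 hR0
    refine ⟨h8, ?_⟩
    rw [h9]
    have hdeg : 0 < (R.map B.res).natDegree := by
      by_contra hd
      have hd0 : (R.map B.res).natDegree = 0 := by omega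
      apply hR0
      rw [Polynomial.eq_C_of_natDegree_eq_zero hd0, Polynomial.coeff_map, hR00, map_zero, map_zero]
    have : (0 : ℤ) < (R.map B.res).natDegree := by exact_mod_cast hdeg
    nlinarith

end PP

end Fermat.Agent.AtS
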